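import Fermat.Agent.ResidualCarayol.Geometry.KummerFn
import Fermat.Agent.ModCurveGenus.Genus

/-!
# Orders of Kummer functions away from the cusps without elliptic points

When `X₀(M)` has no elliptic points, for example when `4 ∣ M` or `9 ∣ M`, the orders of a Kummer
function at the places where `j` is finite are divisible by `p`.
-/

set_option autoImplicit false

noncomputable section

open UpperHalfPlane CongruenceSubgroup AlgebraicCurve ModularCurve Polynomial
open scoped MatrixGroups Manifold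

namespace Fermat.Agent.ResidualCarayol

open KummerDivisor (IsAlgRoot ordAt)
open ModCurveGenus (FN jEl ellMult iotaC fibreSet mem_fibreSet)

local notation "Qbar" => AlgebraicClosure ℚ
local notation "ι₀" => AlgHom.toRingHom complexEmbedding

theorem nuThree_eq_zero_of_two_dvd {N : ℕ} (h : 2 ∣ N) : nuThree N = 0 := by
  have : IsEmpty {x : ZMod N // x ^ 2 + x + 1 = 0} := ⟨fun x => by
    have := congrArg (ZMod.castHom h (ZMod 2)) x.2
    simp only [map_add, map_pow, map_one, map_zero] at this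
    generalize ZMod.castHom h (ZMod 2) x.1 = y at this
    revert this; revert y; decide⟩
  exact Nat.card_of_isEmpty

theorem nuTwo_eq_zero_of_four_dvd {N : ℕ} (h : 4 ∣ N) : nuTwo N = 0 := by
  have : IsEmpty {x : ZMod N // x ^ 2 + 1 = 0} := ⟨fun x => by
    have := congrArg (ZMod.castHom h (ZMod 4)) x.2
    simp only [map_add, map_pow, map_one, map_zero] at this
    generalize ZMod.castHom h (ZMod 4) x.1 = y at this
    revert this; revert y; decide⟩
  exact Nat.card_of_isEmpty

/-- `Γ₀(N)` has no elliptic points of order `2` for `3 ∣ N`. -/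
theorem nuTwo_eq_zero_of_three_dvd {N : ℕ} (h : 3 ∣ N) : nuTwo N = 0 := by
  have : IsEmpty {x : ZMod N // x ^ 2 + 1 = 0} := ⟨fun x => by
    have := congrArg (ZMod.castHom h (ZMod 3)) x.2
    simp only [map_add, map_pow, map_one, map_zero] at this
    generalize ZMod.castHom h (ZMod 3) x.1 = y at this
    revert this; revert y; decide⟩
  exact Nat.card_of_isEmpty

theorem nuThree_eq_zero_of_nine_dvd {N : ℕ} (h : 9 ∣ N) : nuThree N = 0 := by
  have : IsEmpty {x : ZMod N // x ^ 2 + x + 1 = 0} := ⟨fun x => by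
    have := congrArg (ZMod.castHom h (ZMod 9)) x.2
    simp only [map_add, map_pow, map_one, map_zero] at this
    generalize ZMod.castHom h (ZMod 9) x.1 = y at this
    revert this; revert y; decide⟩
  exact Nat.card_of_isEmpty

/-- No elliptic points when `h ^ 2 ∣ N` for `h = 2` or `h = 3`. -/
theorem nu_eq_zero_of_sq_dvd {N h : ℕ} (hh : h = 2 ∨ h = 3) (hN : h ^ 2 ∣ N) :
    nuTwo N = 0 ∧ nuThree N = 0 := by
  rcases hh with rfl | rfl
  · exact ⟨nuTwo_eq_zero_of_four_dvd (by simpa using hN),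
      nuThree_eq_zero_of_two_dvd ((show (2 : ℕ) ∣ 2 ^ 2 by norm_num).trans hN)⟩
  · exact ⟨nuTwo_eq_zero_of_three_dvd ((show (3 : ℕ) ∣ 3 ^ 2 by norm_num).trans hN),
      nuThree_eq_zero_of_nine_dvd (by simpa using hN)⟩

variable {M : ℕ} [NeZero M]

/-- A finite sum of terms at most `e` attains `e` times its length only if all terms are `e`. -/
theorem eq_of_sum_eq_card_mul {α : Type*} (s : Finset α) (o : α → ℤ) {e : ℕ} {ψ : ℕ}
    (hle : ∀ v ∈ s, o v ≤ e) (hsum : ∑ v ∈ s, o v = ψ) (hcard : e * s.card = ψ) :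
    ∀ v ∈ s, o v = e := by
  refine (Finset.sum_eq_sum_iff_of_le hle).mp ?_
  rw [hsum, Finset.sum_const, nsmul_eq_mul, ← hcard]
  push_cast
  ring

/-- The ramification of `j` is the elliptic order everywhere if there are no elliptic points. -/
theorem ord_jEl_sub_eq (h2 : nuTwo M = 0) (h3 : nuThree M = 0) (a : Qbar)
    (v : Place Qbar (FN M)) (hv : 0 < v.ord (jEl M - algebraMap Qbar (FN M) a)) :
    v.ord (jEl M - algebraMap Qbar (FN M) a) = ellMult (iotaC a) := by
  have hle := ModCurveGenus.ord_jEl_sub_le M a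
  have hsum := ModCurveGenus.sum_fibreSet M a
  have hcard := ModCurveGenus.card_fibreSet M a
  by_cases ha : a = 0
  · subst ha
    have h := ModCurveGenus.three_mul_card_fibre_zero M
    rw [h3, mul_zero, add_zero] at h
    rw [map_zero iotaC, ellMult, if_pos rfl]
    refine eq_of_sum_eq_card_mul (fibreSet M 0)
      (fun w => w.ord (jEl M - algebraMap Qbar (FN M) 0)) (fun w hw => ?_) hsum ?_ v
      ((mem_fibreSet M 0 v).mpr hv)
    · simpa using hle w ((mem_fibreSet M 0 w).mp hw)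
    · rw [hcard, map_zero, sub_zero, h]
  by_cases ha' : a = 1728
  · subst ha'
    have h := ModCurveGenus.two_mul_card_fibre_1728 M
    rw [h2, add_zero] at h
    rw [ellMult, if_neg ((ModCurveGenus.iotaC_eq_zero_iff 1728).not.mpr ha),
      if_pos ((ModCurveGenus.iotaC_eq_1728_iff 1728).mpr rfl)]
    refine eq_of_sum_eq_card_mul (fibreSet M 1728)
      (fun w => w.ord (jEl M - algebraMap Qbar (FN M) 1728)) (fun w hw => ?_) hsum ?_ v
      ((mem_fibreSet M 1728 v).mpr hv)
    · simpa [ha] using hle w ((mem_fibreSet M 1728 w).mp hw)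
    · rw [hcard, h]
  · rw [ModCurveGenus.ord_eq_one_of_ne M a ha ha' v hv, ellMult,
      if_neg ((ModCurveGenus.iotaC_eq_zero_iff a).not.mpr ha),
      if_neg ((ModCurveGenus.iotaC_eq_1728_iff a).not.mpr ha')]
    rfl

theorem ellMult_map (ι : Qbar →+* ℂ) (a : Qbar) : ellMult (ι a) = ellMult (iotaC a) := by
  unfold ModCurveGenus.ellMult
  have h1 : ι a = 1728 ↔ a = 1728 := by
    conv_lhs => rw [← map_ofNat ι 1728]
    exact ι.injective.eq_iff
  simp only [map_eq_zero, h1, ModCurveGenus.iotaC_eq_1728_iff]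

/-- The expansion of `jEl`. -/
theorem coe_jEl : (jEl M : LaurentSeries Qbar) = jqModC Qbar := by
  show coeffEmb Qbar (qExpand ℚ 1 jq) = jqModC Qbar
  rw [ModularAnalytic.coeffEmb_qExpand_jq, qExpand_one_apply]

variable (M) in
/-- Without elliptic points every finite place is a simple point of the upper half plane. -/
theorem exists_ordAt_eq (h2 : nuTwo M = 0) (h3 : nuThree M = 0) (ι : Qbar →+* ℂ)
    (f : KummerES.weak (Gamma0 M) M (RingHom.range ι)) (hf : f ≠ 0)
    (v : Place Qbar (modularFunctionFieldBar M)) (hv : 0 ≤ v.ord (jEl M)) :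
    ∃ (δ : SL(2, ℤ)) (τ : ℍ) (n : ℕ), ordAt τ (KummerES.comp f.1 δ) = n ∧
      v.ord (ModularAnalytic.toField M M ι f) = n := by
  open KummerDivisor in
  have hJe : ModularAnalytic.toField M M ι (jW M ι) = jEl M :=
    Subtype.ext (by rw [coe_toField_jW, coe_jEl])
  obtain ⟨c₀, τ₀, δ, k, m, hc₀, hτ₀, hk, hkm, hconj⟩ :=
    KummerDivisor.exists_point_of_ord_nonneg M ι v (hJe ▸ hv)
  obtain ⟨n, hn, hn'⟩ := hconj f hf
  refine ⟨δ, τ₀, n, hn, ?_⟩
  have hkdef : k = ellMult (ι c₀) := by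
    have h := hk.symm.trans (ModCurveGenus.analyticOrderAt_jj_sub τ₀)
    rw [hτ₀] at h
    exact_mod_cast h
  rw [hJe] at hc₀ hkm
  rw [ord_jEl_sub_eq h2 h3 c₀ v hc₀, ← ellMult_map ι, ← hkdef] at hkm
  have hk0 : 0 < k := hkdef ▸ ModCurveGenus.ellMult_pos _
  have hm : (m : ℤ) = 1 :=
    mul_left_cancel₀ (show (k : ℤ) ≠ 0 by omega) (hkm.symm.trans (mul_one _).symm)
  rw [hn', hm, mul_one]

variable {p : ℕ} [NeZero p] {χ : Additive (Gamma0 M) →+ ZMod p}

/-- Without elliptic points `p` divides the orders of `g ^ p` where `j` is finite. -/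
theorem dvd_ord_fn (h2 : nuTwo M = 0) (h3 : nuThree M = 0) {g : ℍ → ℂ} (h : IsAlgRoot ι₀ χ g)
    (v : Place Qbar (modularFunctionFieldBar M)) (hv : 0 ≤ v.ord (jEl M)) :
    (p : ℤ) ∣ v.ord h.fn := by
  obtain ⟨δ, τ, n, hn, he⟩ := exists_ordAt_eq M h2 h3 ι₀ ⟨g ^ p, h.pow_mem⟩ h.power_ne_zero v hv
  rw [IsAlgRoot.fn, he]
  exact Int.natCast_dvd_natCast.mpr (h.dvd_ordAt δ τ n hn)

/-- Without elliptic points `p` divides the orders of a Kummer function at the places where `j` is
finite. -/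
theorem IsKummerFn.dvd_ord_of_nu {f : modularFunctionFieldBar M} (h : IsKummerFn χ f)
    (h2 : nuTwo M = 0) (h3 : nuThree M = 0) {J : modularFunctionFieldBar M}
    (hJ : (J : LaurentSeries Qbar) = jqModC Qbar)
    (v : Place Qbar (modularFunctionFieldBar M)) (hv : 0 ≤ v.ord J) : (p : ℤ) ∣ v.ord f := by
  rw [show J = jEl M from Subtype.ext (hJ.trans coe_jEl.symm)] at hv
  obtain ⟨g, h, z, hz, rfl⟩ := h
  rw [v.ord_mul h.fn_ne_zero (pow_ne_zero p hz), FFPlaces.ord_pow]
  exact dvd_add (dvd_ord_fn h2 h3 h v hv) (dvd_mul_right _ _)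

/-- The same when `h ^ 2 ∣ M` for `h = 2` or `h = 3`. -/
theorem IsKummerFn.dvd_ord_of_sq_dvd {f : modularFunctionFieldBar M} (hf : IsKummerFn χ f)
    {h : ℕ} (hh : h = 2 ∨ h = 3) (hM : h ^ 2 ∣ M) {J : modularFunctionFieldBar M}
    (hJ : (J : LaurentSeries Qbar) = jqModC Qbar)
    (v : Place Qbar (modularFunctionFieldBar M)) (hv : 0 ≤ v.ord J) : (p : ℤ) ∣ v.ord f :=
  hf.dvd_ord_of_nu (nu_eq_zero_of_sq_dvd hh hM).1 (nu_eq_zero_of_sq_dvd hh hM).2 hJ v hv

end Fermat.Agent.ResidualCarayol
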