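import Fermat.Agent.Conn.SheetsConsistent
import Mathlib.Algebra.CharP.Lemmas

/-!
# Orbital products on the three-component model

An operator `op` of multiplicative translates, read through the expansions `psi z`, has residues
`∏ j, (r j ·) ^ n i j` on the component `i`.  If all `n i j` are multiples of `p`, three
applications of `op` give a function with consistent approximate `p`-th roots on the components.
-/

set_option autoImplicit false

noncomputable section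

open scoped Classical

namespace Fermat.Agent.ResidualCarayol.Geometry

open Fermat.Agent.Conn

variable {W F R Rb : Type*} [CommRing W] [IsLocalRing W] [Field F]
    [Algebra W F] [CommRing R] [Algebra W R] [CommRing Rb] [Algebra W Rb] {q : ℕ}
variable {T : ThreeSheet W F R Rb q}
variable {Z Ω K : Type*} [Fintype Z] [Field Ω] [CommRing K]

/-- Multiplicative translates of functions, read through expansions in `Ω` with reductions in
`K`. -/
structure OpData (T : ThreeSheet W F R Rb q) (Z Ω K : Type*) [Fintype Z] [Field Ω]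
    [CommRing K] where
  A : Z → Z → ℕ
  psi : Z → F →+* Ω
  intS : Subring Ω
  red : intS →+* K
  iota : Rb →+* K
  iota_inj : Function.Injective iota
  cls : Z → Fin 3
  rep : Fin 3 → Z
  cls_rep : ∀ i, cls (rep i) = i
  mem_intS : ∀ z (b : T.B), psi z b ∈ intS
  red_psi : ∀ z (b : T.B), red ⟨psi z b, mem_intS z b⟩ = iota (T.r (cls z) b)
  op : F →* F
  op_mem : ∀ b : T.B, op b ∈ T.B
  psi_op : ∀ y f, psi y (op f) = ∏ z, psi z f ^ A y z

namespace OpData

variable (D : OpData T Z Ω K)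

/-- The reduction along `psi z`. -/
def redZ (z : Z) (b : T.B) : K := D.red ⟨D.psi z b, D.mem_intS z b⟩

theorem redZ_eq (z : Z) (b : T.B) : D.redZ z b = D.iota (T.r (D.cls z) b) := D.red_psi z b

/-- `op` on the model. -/
def opB (b : T.B) : T.B := ⟨D.op b, D.op_mem b⟩

theorem coe_opB (b : T.B) : (D.opB b : F) = D.op b := rfl

/-- Class sums of `A`. -/
def cnt (i j : Fin 3) : ℕ := ∑ z ∈ Finset.univ.filter (fun z => D.cls z = j), D.A (D.rep i) z

theorem sum_A (i : Fin 3) (f : Fin 3 → ℤ) :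
    ∑ z, (D.A (D.rep i) z : ℤ) * f (D.cls z) = ∑ j, (D.cnt i j : ℤ) * f j := by
  rw [← Finset.sum_fiberwise Finset.univ D.cls]
  refine Finset.sum_congr rfl fun j _ => ?_
  rw [cnt, Nat.cast_sum, Finset.sum_mul]
  refine Finset.sum_congr rfl fun z hz => ?_
  rw [(Finset.mem_filter.1 hz).2]

theorem prod_A {M : Type*} [CommMonoid M] (i : Fin 3) (f : Fin 3 → M) :
    ∏ z, f (D.cls z) ^ D.A (D.rep i) z = ∏ j, f j ^ D.cnt i j := by
  rw [← Finset.prod_fiberwise Finset.univ D.cls]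
  refine Finset.prod_congr rfl fun j _ => ?_
  rw [cnt, ← Finset.prod_pow_eq_pow_sum]
  refine Finset.prod_congr rfl fun z hz => ?_
  rw [(Finset.mem_filter.1 hz).2]

/-- The residue of `op b` on a component is the product of the residues of `b` with the class sums
as exponents. -/
theorem r_opB (i : Fin 3) (b : T.B) : T.r i (D.opB b) = ∏ j, T.r j b ^ D.cnt i j := by
  apply D.iota_inj
  rw [← D.prod_A i (fun j => T.r j b), map_prod]
  conv_lhs => rw [← D.cls_rep i, ← D.redZ_eq]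
  have h : (⟨D.psi (D.rep i) (D.opB b), D.mem_intS _ _⟩ : D.intS) =
      ∏ z, ⟨D.psi z b, D.mem_intS z b⟩ ^ D.A (D.rep i) z := by
    apply Subtype.ext
    push_cast
    exact D.psi_op _ _
  rw [redZ, h, map_prod]
  refine Finset.prod_congr rfl fun z _ => ?_
  rw [map_pow, map_pow, D.red_psi]

/-- `op` sends nonzero functions to nonzero functions. -/
theorem op_ne_zero {x : F} (hx : x ≠ 0) : D.op x ≠ 0 := fun h => by
  have h' := D.psi_op (D.rep 0) x
  rw [h, map_zero] at h'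
  exact Finset.prod_ne_zero_iff.2
    (fun z _ => pow_ne_zero _ ((map_ne_zero (D.psi z)).2 hx)) h'.symm

/-- A unit of the local ring of reductions. -/
def Unitlike (w : Ω) : Prop := ∃ s t : D.intS, D.red s ≠ 0 ∧ D.red t ≠ 0 ∧ (s : Ω) * w = t

variable {D} [IsDomain K]

/-- Products of units are units. -/
theorem Unitlike.mul {v w : Ω} (hv : D.Unitlike v) (hw : D.Unitlike w) :
    D.Unitlike (v * w) := by
  obtain ⟨s, t, hs, ht, e⟩ := hv
  obtain ⟨s', t', hs', ht', e'⟩ := hw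
  exact ⟨s * s', t * t', by rw [map_mul]; exact mul_ne_zero hs hs',
    by rw [map_mul]; exact mul_ne_zero ht ht', by push_cast; rw [← e, ← e']; ring⟩

/-- `1` is a unit. -/
theorem Unitlike.one : D.Unitlike 1 :=
  ⟨1, 1, by rw [map_one]; exact one_ne_zero, by rw [map_one]; exact one_ne_zero, by simp⟩

/-- Powers of units are units. -/
theorem Unitlike.pow {w : Ω} (hw : D.Unitlike w) (k : ℕ) : D.Unitlike (w ^ k) := by
  induction k with
  | zero => rw [pow_zero]; exact Unitlike.one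
  | succ k ih => rw [pow_succ]; exact ih.mul hw

omit [IsDomain K] in
/-- Units are not zero. -/
theorem Unitlike.ne_zero {w : Ω} (h : D.Unitlike w) : w ≠ 0 := by
  obtain ⟨s, t, hs, ht, e⟩ := h
  rintro rfl
  rw [mul_zero] at e
  exact ht (by rw [show t = 0 from Subtype.ext e.symm, map_zero])

omit [IsDomain K] in
/-- Inverses of units are units. -/
theorem Unitlike.inv {w : Ω} (h : D.Unitlike w) : D.Unitlike w⁻¹ := by
  have h0 := h.ne_zero
  obtain ⟨s, t, hs, ht, e⟩ := h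
  exact ⟨t, s, ht, hs, by rw [← e, mul_assoc, mul_inv_cancel₀ h0, mul_one]⟩

variable (D)

omit [IsDomain K] in
theorem red_natCast : D.red (q : D.intS) = 0 := by
  have h := D.red_psi (D.rep 0) (q : T.B)
  rw [T.r_q, map_zero] at h
  rw [← h]
  congr 1
  apply Subtype.ext
  show _ = D.psi (D.rep 0) ((q : T.B) : F)
  push_cast
  rw [map_natCast]

include D in
omit [IsDomain K] in
/-- `q` is not zero in `Ω`. -/
theorem q_ne_zero : (q : Ω) ≠ 0 := by
  rw [← map_natCast (D.psi (D.rep 0))]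
  exact (map_ne_zero _).2 T.q_ne

omit [IsDomain K] in
/-- `q ^ k` is a unit of the local ring of reductions only for `k = 0`. -/
theorem eq_zero_of_unitlike_zpow {k : ℤ} (h : D.Unitlike ((q : Ω) ^ k)) : k = 0 := by
  wlog hk : 0 ≤ k generalizing k
  · have := this (k := -k) (by rw [zpow_neg]; exact h.inv) (by omega)
    omega
  lift k to ℕ using hk
  obtain ⟨s, t, hs, ht, e⟩ := h
  rw [zpow_natCast] at e
  rcases Nat.eq_zero_or_pos k with rfl | hk
  · rfl
  · refine absurd ?_ ht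
    rw [← (show s * (q : D.intS) ^ k = t from Subtype.ext (by push_cast; exact e)), map_mul,
      map_pow, D.red_natCast, zero_pow hk.ne', mul_zero]

omit [IsDomain K] in
theorem unitlike_of_unitAt {z : Z} {x : F} (h : T.UnitAt (D.cls z) x) :
    D.Unitlike (D.psi z x) := by
  obtain ⟨s, t, hs, ht, e⟩ := h
  refine ⟨⟨_, D.mem_intS z s⟩, ⟨_, D.mem_intS z t⟩, ?_, ?_, ?_⟩
  · rw [D.red_psi]; exact (map_ne_zero_iff _ D.iota_inj).2 hs
  · rw [D.red_psi]; exact (map_ne_zero_iff _ D.iota_inj).2 ht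
  · show D.psi z s * D.psi z x = D.psi z t
    rw [← map_mul, e]

/-- The scale of the order on a component. -/
def wt (q : ℕ) (i : Fin 3) : ℤ := if i = 1 then 1 else ((q - 1 : ℕ) : ℤ)

/-- The order on a component, read along `psi z`. -/
theorem unitlike_of_hasOrd {z : Z} {x : F} {a : ℤ} (h : T.HasOrd (D.cls z) x a) :
    D.Unitlike (D.psi z x ^ (q - 1) * (q : Ω) ^ (-(wt q (D.cls z) * a))) := by
  by_cases hi : D.cls z = 1
  · rw [wt, if_pos hi, one_mul]
    rw [hi, T.hasOrd_mid] at h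
    have h' := D.unitlike_of_unitAt (z := z) (hi.symm ▸ h)
    rwa [map_mul, map_pow, map_zpow₀, map_natCast] at h'
  · rw [wt, if_neg hi]
    rw [T.hasOrd_outer hi] at h
    have h' := (D.unitlike_of_unitAt h).pow (q - 1)
    rw [map_mul, map_zpow₀, map_natCast, mul_pow] at h'
    convert h' using 2
    rw [← zpow_natCast ((q : Ω) ^ (-a)), ← zpow_mul]
    congr 1
    ring

/-- The orders of `op x` are the class sums of the orders of `x`. -/
theorem wt_mul_ord {x : F} {a : Fin 3 → ℤ} (ha : ∀ j, T.HasOrd j x (a j)) {i : Fin 3} {b : ℤ}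
    (hb : T.HasOrd i (D.op x) b) :
    wt q i * b = ∑ j, (D.cnt i j : ℤ) * (wt q j * a j) := by
  rw [← D.sum_A i (fun j => wt q j * a j)]
  have h1 := D.unitlike_of_hasOrd (z := D.rep i) (x := D.op x) (a := b) (by rwa [D.cls_rep])
  rw [D.cls_rep, D.psi_op] at h1
  set S := ∑ z, (D.A (D.rep i) z : ℤ) * (wt q (D.cls z) * a (D.cls z))
  have h2 : D.Unitlike ((∏ z, D.psi z x ^ D.A (D.rep i) z) ^ (q - 1) * (q : Ω) ^ (-S)) := by
    have hsum : (q : Ω) ^ (-S) =
        ∏ z, ((q : Ω) ^ (-(wt q (D.cls z) * a (D.cls z)))) ^ D.A (D.rep i) z := by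
      simp only [S, ← Finset.sum_neg_distrib]
      induction (Finset.univ : Finset Z) using Finset.induction with
      | empty => simp
      | insert z s hz ih =>
        rw [Finset.sum_insert hz, zpow_add₀ D.q_ne_zero, ih, Finset.prod_insert hz]
        congr 1
        rw [← zpow_natCast ((q : Ω) ^ (-(wt q (D.cls z) * a (D.cls z)))), ← zpow_mul]
        congr 1
        ring
    rw [hsum, ← Finset.prod_pow, ← Finset.prod_mul_distrib]
    refine Finset.prod_induction _ _ (fun v w => Unitlike.mul) Unitlike.one fun z _ => ?_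
    rw [← pow_mul, mul_comm (D.A (D.rep i) z), pow_mul, ← mul_pow]
    exact (D.unitlike_of_hasOrd (ha _)).pow _
  have h3 := h1.mul h2.inv
  rw [mul_inv, mul_mul_mul_comm, mul_inv_cancel₀, one_mul, ← zpow_neg,
    ← zpow_add₀ D.q_ne_zero] at h3
  · have := D.eq_zero_of_unitlike_zpow h3
    omega
  · exact left_ne_zero_of_mul h1.ne_zero

variable {p : ℕ}

/-- Twice `op` makes all orders multiples of `p`. -/
theorem dvd_ord_op_op (hn : ∀ i j, p ∣ D.cnt i j)
    (hmid : ∀ i, i ≠ 1 → (q - 1) ∣ D.cnt i 1) {x : F} (hx : x ≠ 0) {i : Fin 3} {b : ℤ}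
    (hb : T.HasOrd i (D.op (D.op x)) b) : (p : ℤ) ∣ b := by
  choose a ha _ using fun j => T.exists_hasOrd j hx
  choose a' ha' _ using fun j => T.exists_hasOrd j (D.op_ne_zero hx)
  have hdvd : ∀ (i : Fin 3) (f : Fin 3 → ℤ), (p : ℤ) ∣ ∑ j, (D.cnt i j : ℤ) * f j :=
    fun i f => Finset.dvd_sum fun j _ => (Int.natCast_dvd_natCast.2 (hn i j)).mul_right _
  have h1 := D.wt_mul_ord ha' hb
  by_cases hi : i = 1
  · subst hi
    rw [wt, if_pos rfl, one_mul] at h1
    rw [h1]; exact hdvd _ _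
  obtain ⟨m, hm⟩ := hmid i hi
  have hmid1 : (p : ℤ) ∣ a' 1 := by
    have h := D.wt_mul_ord ha (ha' 1)
    rw [wt, if_pos rfl, one_mul] at h
    rw [h]; exact hdvd _ _
  have hq1 : ((q - 1 : ℕ) : ℤ) ≠ 0 := by have := T.prime_q.two_le; omega
  have e : b = (D.cnt i 0 : ℤ) * a' 0 + (D.cnt i 2 : ℤ) * a' 2 + (m : ℤ) * a' 1 := by
    apply mul_left_cancel₀ hq1
    simp only [wt, if_neg hi, Fin.sum_univ_three, Fin.reduceEq, if_true, if_false, one_mul] at h1
    rw [h1, hm, Nat.cast_mul]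
    ring
  rw [e]
  exact (dvd_add (dvd_add ((Int.natCast_dvd_natCast.2 (hn i 0)).mul_right _)
    ((Int.natCast_dvd_natCast.2 (hn i 2)).mul_right _)) (hmid1.mul_left _))

variable [IsDomain Rb]

omit [IsDomain K] in
/-- `op` preserves units on the components and acts on their residues through the class sums. -/
theorem unitAt_op {u : F} (hu : ∀ j, T.UnitAt j u) (i : Fin 3) :
    T.UnitAt i (D.op u) ∧ T.res i (D.op u) = ∏ j, T.res j u ^ D.cnt i j := by
  obtain ⟨b, c, hbc, e⟩ := T.exists_common_den hu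
  have hb : T.r i (D.opB b) ≠ 0 := by
    rw [D.r_opB]; exact Finset.prod_ne_zero_iff.2 fun j _ => pow_ne_zero _ (hbc j).1
  have hc : T.r i (D.opB c) ≠ 0 := by
    rw [D.r_opB]; exact Finset.prod_ne_zero_iff.2 fun j _ => pow_ne_zero _ (hbc j).2
  have eop : (D.opB b : F) * D.op u = (D.opB c : F) := by
    rw [coe_opB, coe_opB, ← map_mul, e]
  refine ⟨⟨_, _, hb, hc, eop⟩, ?_⟩
  rw [ThreeSheet.res_eq hb eop, T.phi_apply, T.phi_apply, D.r_opB, D.r_opB, map_prod, map_prod,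
    ← Finset.prod_div_distrib]
  refine Finset.prod_congr rfl fun j _ => ?_
  rw [ThreeSheet.res_eq (hbc j).1 e, div_pow, map_pow, map_pow]
  rfl

variable [IsNoetherianRing W]

omit [IsDomain Rb] in
variable (T) in
/-- A local root of a function which is a unit on all components. -/
theorem exists_root_of_units {n : ℕ} (hn : 0 < n) {x : F} (hx : ∀ i, T.UnitAt i x)
    (hdiv : ∀ 𝔭 : Ideal T.B, 𝔭.IsPrime → (q : T.B) ∉ 𝔭 → T.DivAt n 𝔭 x)
    {m : Ideal T.B} (hm : m.IsMaximal) (hq : (q : T.B) ∈ m) :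
    ∃ (g : F) (s t : T.B), g ≠ 0 ∧ s ∉ m ∧ t ∉ m ∧ (s : F) * x = (t : F) * g ^ n := by
  obtain ⟨d, hd, hdx⟩ := T.frac x
  have hdF : (d : F) ≠ 0 := T.ne_zero_of_coe hd
  have hx0 : x ≠ 0 := (hx 0).ne_zero
  set b : T.B := d ^ (n - 1) * ⟨_, hdx⟩ with hb
  have hbF : (b : F) = (d : F) ^ n * x := by
    rw [hb, MulMemClass.coe_mul, SubmonoidClass.coe_pow]
    show (d : F) ^ (n - 1) * ((d : F) * x) = _
    rw [← mul_assoc, pow_sub_one_mul hn.ne']
  have hb0 : b ≠ 0 := fun h => mul_ne_zero (pow_ne_zero n hdF) hx0 (hbF ▸ congrArg Subtype.val h)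
  obtain ⟨g, s, t, hs, ht, e⟩ := T.exists_root_at hm hq hn hb0 (fun i => by
    obtain ⟨s, t, hs, ht, e⟩ := hx i
    exact ⟨(d : F), s, t, hs, ht, by rw [hbF, ← e]; ring⟩) (fun 𝔭 hp hqp => by
    obtain ⟨g, s, t, hs, ht, e⟩ := hdiv 𝔭 hp hqp
    exact ⟨(d : F) * g, s, t, hs, ht, by rw [hbF, mul_pow, mul_left_comm, e]; ring⟩)
  rw [hbF] at e
  have e' : (s : F) * x = (t : F) * (g / (d : F)) ^ n := by
    rw [div_pow, ← mul_div_assoc, ← e, eq_div_iff (pow_ne_zero n hdF)]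
    ring
  refine ⟨g / (d : F), s, t, fun h0 => ?_, hs, ht, e'⟩
  rw [h0, zero_pow hn.ne', mul_zero] at e'
  exact mul_ne_zero (T.ne_zero_of_coe (b := s) fun h => hs (by rw [h]; exact zero_mem m)) hx0 e'

omit [IsDomain K] in
/-- Consistent approximate roots of `op u` for `u` a unit on the three components. -/
theorem consistent_op (hp : 0 < p) (hn : ∀ i j, p ∣ D.cnt i j) {E : ℕ}
    (hE : ∀ i, ∑ j, D.cnt i j = p * E) {u : F} (hu : ∀ i, T.UnitAt i u)
    (hdiv : ∀ 𝔭 : Ideal T.B, 𝔭.IsPrime → (q : T.B) ∉ 𝔭 → T.DivAt p 𝔭 u)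
    (hdiv' : ∀ 𝔭 : Ideal T.B, 𝔭.IsPrime → (q : T.B) ∉ 𝔭 → T.DivAt p 𝔭 (D.op u)) :
    ∃ G : Fin 3 → F,
      Consistent T.B (q : W) (fun i => RingHom.ker (T.r i)) (D.op u) p G := by
  choose k hk using hn
  have hkE : ∀ i, ∑ j, k i j = E := fun i => by
    have h := hE i
    simp only [hk, ← Finset.mul_sum] at h
    exact Nat.eq_of_mul_eq_mul_left hp h
  let h : Fin 3 → FractionRing Rb := fun i => ∏ j, T.res j u ^ k i j
  have hh : ∀ i, h i ≠ 0 := fun i => Finset.prod_ne_zero_iff.2 fun j _ =>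
    pow_ne_zero _ (ThreeSheet.res_ne_zero (hu j))
  have hres : ∀ i, T.res i (D.op u) = h i ^ p := fun i => by
    rw [(D.unitAt_op hu i).2]
    show _ = (∏ j, T.res j u ^ k i j) ^ p
    rw [← Finset.prod_pow]
    refine Finset.prod_congr rfl fun j _ => ?_
    rw [hk, ← pow_mul, mul_comm]
  choose G hG hGr using fun i => T.exists_res_eq i (hh i)
  have hGp : ∀ i, T.UnitAt i (G i) ∧ T.res i (G i) ^ p = T.res i (D.op u) := fun i =>
    ⟨hG i, by rw [hGr, hres]⟩
  refine ⟨G, fun i => (hG i).ne_zero, fun i => ?_, fun m hm hqm => ?_⟩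
  · have hu1 : T.UnitAt i (D.op u / G i ^ p) := by
      rw [div_eq_mul_inv]; exact (D.unitAt_op hu i).1.mul ((hG i).pow p).inv
    refine T.near_of_res_eq hu1.inLoc (T.unitAt_one i).inLoc ?_
    rw [ThreeSheet.res_div (D.unitAt_op hu i).1 ((hG i).pow p), ThreeSheet.res_pow (hG i),
      (hGp i).2, div_self (ThreeSheet.res_ne_zero (D.unitAt_op hu i).1)]
    exact (resFrac_one T.coe_injective).symm
  rw [map_natCast] at hqm
  by_cases hcr : ∃ i j, i ≠ j ∧ RingHom.ker (T.r i) ≤ m ∧ RingHom.ker (T.r j) ≤ m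
  · -- all components pass through `m`
    obtain ⟨i₁, j₁, hij, hi₁, hj₁⟩ := hcr
    obtain ⟨P, hP, hpP, hPm⟩ := T.exists_crossing hm hij hi₁ hj₁
    have hpt : ∀ (i : Fin 3) (b : T.B), b ∈ m ↔ T.r i b ∈ P := fun i b => by
      rw [← hPm, ← T.pt_eq hP hpP i, ThreeSheet.mem_pt]
    have hle : ∀ i, RingHom.ker (T.r i) ≤ m := fun i => by
      rw [← hPm, ← T.pt_eq hP hpP i]; exact T.ker_le_pt i P
    obtain ⟨g, s, t, hg0, hs, ht, e⟩ := exists_root_of_units T hp hu hdiv hm hqm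
    have hsi : ∀ i, T.r i s ≠ 0 := fun i h => hs (hle i h)
    have hti : ∀ i, T.r i t ≠ 0 := fun i h => ht (hle i h)
    have htF : (t : F) ≠ 0 := T.ne_zero_of_coe fun h => ht (h ▸ zero_mem m)
    have hg : ∀ i, T.UnitAt i g := fun i => T.unitAt_of_pow hp (by
      rw [← mul_div_cancel_left₀ (g ^ p) htF, ← e, div_eq_mul_inv]
      exact ((T.unitAt_of_r i (hsi i)).mul (hu i)).mul (T.unitAt_of_r i (hti i)).inv)
    obtain ⟨cs, hcs, hcsu⟩ := T.exists_value hm hqm s
    obtain ⟨ct, hct, hctu⟩ := T.exists_value hm hqm t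
    obtain ⟨d, hd⟩ := (hcsu hs).exists_left_inv
    have hops : D.opB s ∉ m := by
      rw [hpt 0, D.r_opB]
      intro hmem
      obtain ⟨j, -, hj⟩ := hP.isPrime.prod_mem_iff.1 hmem
      exact hs ((hpt j s).2 (hP.isPrime.mem_of_pow_mem _ hj))
    refine ⟨D.op g, (ct * d) ^ E, D.op_ne_zero hg0,
      ((hctu ht).mul (IsUnit.of_mul_eq_one cs hd)).pow E,
      ⟨D.opB s, hops, D.opB t, ?_⟩, fun i _ => ?_⟩
    · show (D.opB s : F) * (D.op u / D.op g ^ p) = (D.opB t : F)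
      rw [← mul_div_assoc, coe_opB, coe_opB, ← map_mul, e, map_mul, map_pow,
        mul_div_cancel_right₀ _ (pow_ne_zero _ (D.op_ne_zero hg0))]
    obtain ⟨v, hv⟩ := T.r_surj i (∏ j, T.r j t ^ k i j)
    obtain ⟨w, hw⟩ := T.r_surj i (∏ j, T.r j s ^ k i j)
    have hval : ∀ (x v' : T.B) (c : W), x - algebraMap W T.B c ∈ m →
        T.r i v' = ∏ j, T.r j x ^ k i j → v' - algebraMap W T.B (c ^ E) ∈ m := by
      intro x v' c hx hv'
      rw [hpt i, map_sub, AlgHom.commutes, hv', ← Ideal.Quotient.eq, map_prod]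
      have hx' : ∀ j, Ideal.Quotient.mk P (T.r j x) = Ideal.Quotient.mk P (algebraMap W Rb c) :=
        fun j => Ideal.Quotient.eq.2 (by
          have := (hpt j _).1 hx
          rwa [map_sub, AlgHom.commutes] at this)
      simp only [map_pow, hx', Finset.prod_pow_eq_pow_sum, hkE]
    have hwm : w ∉ m := by
      rw [hpt i, hw]
      intro hmem
      obtain ⟨j, -, hj⟩ := hP.isPrime.prod_mem_iff.1 hmem
      exact hs ((hpt j s).2 (hP.isPrime.mem_of_pow_mem _ hj))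
    have hwi : T.r i w ≠ 0 := fun h => hwm (hle i h)
    have hwF : (w : F) ≠ 0 := T.ne_zero_of_coe fun h => hwm (h ▸ zero_mem m)
    refine ⟨(v : F) / (w : F), ⟨w, hwm, v, mul_div_cancel₀ _ hwF⟩, ?_, ?_⟩
    · refine T.near_of_res_eq ?_
        ⟨w, fun h => hwi (T.phi_eq_zero.1 h), v, mul_div_cancel₀ _ hwF⟩ ?_
      · rw [div_eq_mul_inv]; exact ((hG i).mul (D.unitAt_op hg i).1.inv).inLoc
      rw [ThreeSheet.res_div (hG i) (D.unitAt_op hg i).1, hGr, (D.unitAt_op hg i).2,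
        ThreeSheet.res_eq hwi (mul_div_cancel₀ _ hwF), T.phi_apply, T.phi_apply, hv, hw, map_prod,
        map_prod, ← Finset.prod_div_distrib, ← Finset.prod_div_distrib]
      refine Finset.prod_congr rfl fun j _ => ?_
      rw [hk, map_pow, map_pow, pow_mul, ← div_pow, ← div_pow]
      congr 1
      have hres' := congrArg (T.res j) e
      rw [ThreeSheet.res_mul (T.unitAt_of_r j (hsi j)) (hu j),
        ThreeSheet.res_mul (T.unitAt_of_r j (hti j)) ((hg j).pow p),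
        ThreeSheet.res_pow (hg j), T.res_coe, T.res_coe, T.phi_apply, T.phi_apply] at hres'
      rw [div_eq_div_iff (pow_ne_zero _ (ThreeSheet.res_ne_zero (hg j)))
        ((map_ne_zero_iff _ (IsFractionRing.injective Rb (FractionRing Rb))).2 (hsi j))]
      linear_combination hres'
    · refine T.near_const_div hqm (a := ct ^ E) (b := cs ^ E) hwm (hval t v ct hct hv)
        (hval s w cs hcs hw) ?_
      rw [← mul_pow, mul_assoc, hd, mul_one]
  · -- one component through `m`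
    obtain ⟨g, s, t, v, cs, c, c₀, hg0, hs, -, e, hcsu, hcs, hdata⟩ :=
      T.exists_point_data hp (fun i => (D.unitAt_op hu i).1) G hGp hdiv' hm hqm
    obtain ⟨i₀, hi₀⟩ := T.cover m hm.isPrime hqm
    obtain ⟨d, hd⟩ := hcsu.exists_left_inv
    obtain ⟨-, hvi, hcu, hci, -⟩ := hdata i₀ hi₀
    refine ⟨g, c i₀ * d, hg0, hcu.mul (IsUnit.of_mul_eq_one cs hd), ⟨s, hs, t, ?_⟩,
      fun i hi => ?_⟩
    · show (s : F) * (D.op u / g ^ p) = (t : F)
      rw [← mul_div_assoc, e, mul_div_cancel_right₀ _ (pow_ne_zero _ hg0)]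
    obtain rfl : i = i₀ := by_contra fun h => hcr ⟨i, i₀, h, hi, hi₀⟩
    have hgi := (hdata i hi).1
    have hsi : T.r i s ≠ 0 := fun h => hs (hi h)
    have hsF : (s : F) ≠ 0 := T.ne_zero_of_coe fun h => hs (h ▸ zero_mem m)
    refine ⟨(v i : F) / (s : F), ⟨s, hs, v i, mul_div_cancel₀ _ hsF⟩, ?_, ?_⟩
    · refine T.near_of_res_eq ?_
        ⟨s, fun h => hsi (T.phi_eq_zero.1 h), v i, mul_div_cancel₀ _ hsF⟩ ?_
      · rw [div_eq_mul_inv]; exact ((hG i).mul hgi.inv).inLoc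
      rw [ThreeSheet.res_div (hG i) hgi, ThreeSheet.res_eq hsi (mul_div_cancel₀ _ hsF),
        div_eq_div_iff (ThreeSheet.res_ne_zero hgi) (mt T.phi_eq_zero.1 hsi), hvi]
    · refine T.near_const_div hqm (a := c i) (b := cs) hs hci hcs ?_
      rw [mul_assoc, hd, mul_one]

/-- Three applications of `op` give consistent approximate `p`-th roots. -/
theorem exists_consistent_op (hp : 0 < p) (hn : ∀ i j, p ∣ D.cnt i j)
    (hmid : ∀ i, i ≠ 1 → (q - 1) ∣ D.cnt i 1) {E : ℕ}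
    (hE : ∀ i, ∑ j, D.cnt i j = p * E) {f : F} (hf : f ≠ 0)
    (hdiv : ∀ 𝔭 : Ideal T.B, 𝔭.IsPrime → (q : T.B) ∉ 𝔭 → T.DivAt p 𝔭 (D.op (D.op f)))
    (hdiv' : ∀ 𝔭 : Ideal T.B, 𝔭.IsPrime → (q : T.B) ∉ 𝔭 →
      T.DivAt p 𝔭 (D.op (D.op (D.op f)))) :
    ∃ (y : F) (G : Fin 3 → F), y ≠ 0 ∧
      Consistent T.B (q : W) (fun i => RingHom.ker (T.r i))
        (D.op (D.op (D.op f)) * y ^ p) p G := by
  have hf2 : D.op (D.op f) ≠ 0 := D.op_ne_zero (D.op_ne_zero hf)
  choose a ha _ using fun j => T.exists_hasOrd j hf2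
  choose e he using fun j => D.dvd_ord_op_op hn hmid hf (ha j)
  obtain ⟨x₀, hx00, hx01, hx02⟩ := T.exists_ord_one_outer
  obtain ⟨x₁, hx10, hx11, hx12⟩ := T.exists_ord_one_mid
  have hw : ((T.w x₀ : T.B) : F) = T.wF (x₀ : F) := (T.wF_coe x₀).symm
  have hx20 : T.HasOrd 0 (T.w x₀ : F) 0 := hw ▸ T.hasOrd_wF (i := 0) hx02
  have hx21 : T.HasOrd 1 (T.w x₀ : F) 0 := hw ▸ T.hasOrd_wF (i := 1) hx01
  have hx22 : T.HasOrd 2 (T.w x₀ : F) 1 := hw ▸ T.hasOrd_wF (i := 2) hx00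
  have hne : ∀ {i : Fin 3} {x : F} {b : ℤ}, i ≠ 1 → T.HasOrd i x b → x ≠ 0 := fun hi h =>
    left_ne_zero_of_mul ((T.hasOrd_outer hi).1 h).ne_zero
  set g : F := (x₀ : F) ^ e 0 * (x₁ : F) ^ e 1 * (T.w x₀ : F) ^ e 2 with hgdef
  have hg : g ≠ 0 := mul_ne_zero (mul_ne_zero (zpow_ne_zero _ (hne (by decide) hx00))
    (zpow_ne_zero _ (hne (by decide) hx10))) (zpow_ne_zero _ (hne (by decide) hx20))
  have hgo : ∀ i, T.HasOrd i g (e i) := fun i => by
    have h : ∀ b c d : ℤ, T.HasOrd i (x₀ : F) b → T.HasOrd i (x₁ : F) c →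
        T.HasOrd i (T.w x₀ : F) d → T.HasOrd i g (e 0 * b + e 1 * c + e 2 * d) :=
      fun b c d hb hc hd => T.hasOrd_mul (T.hasOrd_mul (T.hasOrd_zpow hb _) (T.hasOrd_zpow hc _))
        (T.hasOrd_zpow hd _)
    fin_cases i
    · simpa using h 1 0 0 hx00 hx10 hx20
    · simpa using h 0 1 0 hx01 hx11 hx21
    · simpa using h 0 0 1 hx02 hx12 hx22
  set u : F := D.op (D.op f) * (g ^ p)⁻¹ with hudef
  have hu : ∀ i, T.UnitAt i u := fun i => T.unitAt_of_hasOrd
    (mul_ne_zero hf2 (inv_ne_zero (pow_ne_zero _ hg))) (by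
      have h := T.hasOrd_mul (ha i) (T.hasOrd_inv (T.hasOrd_pow (hgo i) p))
      rwa [he i, add_neg_cancel] at h)
  have hudiv : ∀ 𝔭 : Ideal T.B, 𝔭.IsPrime → (q : T.B) ∉ 𝔭 → T.DivAt p 𝔭 u :=
    fun 𝔭 h𝔭 hq => by
      have := h𝔭
      exact (hdiv 𝔭 h𝔭 hq).mul ⟨g⁻¹, 1, 1, h𝔭.one_notMem, h𝔭.one_notMem, by
        rw [inv_pow]⟩
  have hopu : D.op u = D.op (D.op (D.op f)) * (D.op g)⁻¹ ^ p := by
    rw [inv_pow, eq_mul_inv_iff_mul_eq₀ (pow_ne_zero _ (D.op_ne_zero hg)), ← map_pow, ← map_mul,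
      hudef, inv_mul_cancel_right₀ (pow_ne_zero _ hg)]
  have hudiv' : ∀ 𝔭 : Ideal T.B, 𝔭.IsPrime → (q : T.B) ∉ 𝔭 → T.DivAt p 𝔭 (D.op u) :=
    fun 𝔭 h𝔭 hq => by
      have := h𝔭
      rw [hopu]
      exact (hdiv' 𝔭 h𝔭 hq).mul ⟨(D.op g)⁻¹, 1, 1, h𝔭.one_notMem, h𝔭.one_notMem, rfl⟩
  obtain ⟨G, hC⟩ := D.consistent_op hp hn hE hu hudiv hudiv'
  exact ⟨(D.op g)⁻¹, G, inv_ne_zero (D.op_ne_zero hg), hopu ▸ hC⟩

end OpData

end Fermat.Agent.ResidualCarayol.Geometry
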