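import Fermat.Agent.ResidualCarayol.OpHom
import Fermat.Agent.KummerES.HeckeWeak
import Fermat.Agent.KummerDivisor.Kummer
import Fermat.Prelude.Def_GaloisRep_ComplexConjugation

/-!
# Translates of functions of level `q²N` indexed by pairs

For `g` in `Γ₀(N)` with `g (0, ∞) = z` the translate `tr z f` is `u ↦ f ((g⁻¹ u) / q)`.  Weighted
products of translates give orbital operators on functions and on Kummer roots.
-/

set_option autoImplicit false

noncomputable section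

open UpperHalfPlane CongruenceSubgroup
open Fermat.Agent.KummerES (comp weak HasExp zetaC rootPow coeffSubring)
open scoped MatrixGroups Manifold OnePoint Real

namespace Fermat.Agent.ResidualCarayol.Geometry

local notation "Qbar" => AlgebraicClosure ℚ
local notation "BB" => RingHom.range (complexEmbedding.toRingHom : Qbar →+* ℂ)

variable {N q : ℕ} [Fact q.Prime]

/-- `u ↦ f (u / q)`. -/
def down (f : ℍ → ℂ) : ℍ → ℂ :=
  fun u => f (HeckeLattice.rep q ((0 : ZMod q) : HeckeLattice.Idx q) • u)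

variable (q) in
/-- `τ ↦ F (q τ)`. -/
def up (F : ℍ → ℂ) : ℍ → ℂ := fun τ => F (HeckeLattice.rep q (∞ : HeckeLattice.Idx q) • τ)

/-- The representative at `0` is `u ↦ u / q`. -/
theorem coe_rep_zero (u : ℍ) :
    ((HeckeLattice.rep q ((0 : ZMod q) : HeckeLattice.Idx q) • u : ℍ) : ℂ) = (u : ℂ) / q := by
  show ((ModularForm.heckeMatrix q (0 : ZMod q).val • u : ℍ) : ℂ) = _
  rw [ModularForm.coe_heckeMatrix_smul (Fact.out : q.Prime).ne_zero, ZMod.val_zero]
  simp

/-- The representative at `∞` is `u ↦ q u`. -/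
theorem coe_rep_infty (u : ℍ) :
    ((HeckeLattice.rep q (∞ : HeckeLattice.Idx q) • u : ℍ) : ℂ) = (q : ℂ) * u := by
  show ((ModularForm.heckeDiagMatrix q • u : ℍ) : ℂ) = _
  rw [ModularForm.coe_heckeDiagMatrix_smul (Fact.out : q.Prime).ne_zero]

/-- `down` undoes `up`. -/
theorem down_up (F : ℍ → ℂ) : down (q := q) (up q F) = F := by
  funext u
  refine congrArg F (UpperHalfPlane.ext ?_)
  rw [coe_rep_infty, coe_rep_zero,
    mul_div_cancel₀ _ (Nat.cast_ne_zero.2 (Fact.out : q.Prime).ne_zero)]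

theorem rep_zero_conjUp (γ : Gamma0 (q ^ 2 * N)) (u : ℍ) :
    HeckeLattice.rep q ((0 : ZMod q) : HeckeLattice.Idx q) • (conjUp γ • u) =
      (γ : SL(2, ℤ)) • (HeckeLattice.rep q ((0 : ZMod q) : HeckeLattice.Idx q) • u) := by
  refine UpperHalfPlane.ext ?_
  have hq : (q : ℂ) ≠ 0 := Nat.cast_ne_zero.2 (Fact.out : q.Prime).ne_zero
  rw [coe_rep_zero, coe_specialLinearGroup_apply, coe_specialLinearGroup_apply, coe_rep_zero]
  have hc : (q : ℂ) * ((conjUp γ 1 0 : ℤ) : ℂ) = ((γ : SL(2, ℤ)) 1 0 : ℂ) := by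
    exact_mod_cast congrArg (Int.cast : ℤ → ℂ) (mul_lowerLeft_div γ)
  have h00 : conjUp γ 0 0 = (γ : SL(2, ℤ)) 0 0 := rfl
  have h01 : conjUp γ 0 1 = (q : ℤ) * (γ : SL(2, ℤ)) 0 1 := rfl
  have h11 : conjUp γ 1 1 = (γ : SL(2, ℤ)) 1 1 := rfl
  simp only [algebraMap_int_eq, eq_intCast, Complex.ofReal_intCast, h00, h01, h11, ← hc]
  push_cast
  field_simp

/-- `τ ↦ q τ` intertwines `γ` and `conjUp γ`. -/
theorem rep_infty_smul (γ : Gamma0 (q ^ 2 * N)) (τ : ℍ) :
    HeckeLattice.rep q (∞ : HeckeLattice.Idx q) • ((γ : SL(2, ℤ)) • τ) =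
      conjUp γ • (HeckeLattice.rep q (∞ : HeckeLattice.Idx q) • τ) := by
  set R0 := HeckeLattice.rep q ((0 : ZMod q) : HeckeLattice.Idx q)
  set Ri := HeckeLattice.rep q (∞ : HeckeLattice.Idx q)
  have h0 : ∀ u : ℍ, R0 • (Ri • u) = u := fun u => UpperHalfPlane.ext (by
    rw [coe_rep_zero, coe_rep_infty,
      mul_div_cancel_left₀ _ (Nat.cast_ne_zero.2 (Fact.out : q.Prime).ne_zero)])
  apply smul_left_cancel R0
  rw [rep_zero_conjUp, h0, h0]

/-- The transporter from the base pair. -/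
abbrev transp (hqN : ¬ q ∣ N) (z : Pair q) : SL(2, ℤ) :=
  (transporter (isTransitiveFrom_pair (N := N) hqN) z : Gamma0 N)

/-- The translate of `f` attached to a pair. -/
def tr (hqN : ¬ q ∣ N) (z : Pair q) (f : ℍ → ℂ) : ℍ → ℂ :=
  comp (down (q := q) f) (transp hqN z)⁻¹

theorem tr_pow (hqN : ¬ q ∣ N) (z : Pair q) (f : ℍ → ℂ) (n : ℕ) :
    tr hqN z (f ^ n) = tr hqN z f ^ n := rfl

/-- Translates are holomorphic. -/
theorem mdiff_tr (hqN : ¬ q ∣ N) (z : Pair q) {f : ℍ → ℂ} (hf : MDiff f) : MDiff (tr hqN z f) :=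
  KummerES.mdiff_comp (hf.comp (mdifferentiable_smul (KummerES.det_rep_pos' _))) _

variable {n : ℕ} [NeZero n]

/-- A multiplier of `g` gives one of `down g`. -/
theorem comp_down (hqN : ¬ q ∣ N) {g : ℍ → ℂ} {χ : Additive (Gamma0 (q ^ 2 * N)) →+ ZMod n}
    (hg : ∀ γ : Gamma0 (q ^ 2 * N),
      comp g γ = fun τ => rootPow n (χ (Additive.ofMul γ)) * g τ)
    (h : stabGroup N q (basePair : Pair q)) (u : ℍ) :
    down (q := q) g ((h : SL(2, ℤ)) • u) =
      rootPow n (χ (Additive.ofMul ((conjT hqN).symm h))) * down (q := q) g u := by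
  obtain ⟨γ, rfl⟩ := (conjT hqN).surjective h
  rw [MulEquiv.symm_apply_apply]
  show g (_ • (conjUp γ • u)) = _
  rw [rep_zero_conjUp]
  exact congrFun (hg γ) _

/-- The multipliers of the translates are given by Shapiro's cocycle. -/
theorem comp_tr (hqN : ¬ q ∣ N) {g : ℍ → ℂ} {χ : Additive (Gamma0 (q ^ 2 * N)) →+ ZMod n}
    (hg : ∀ γ : Gamma0 (q ^ 2 * N),
      comp g γ = fun τ => rootPow n (χ (Additive.ofMul γ)) * g τ)
    (η : Gamma0 N) (z : Pair q) (u : ℍ) :
    tr hqN z g ((η : SL(2, ℤ)) • u) =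
      rootPow n (shapiro (isTransitiveFrom_pair hqN)
          (χ.comp (MonoidHom.toAdditive (conjT hqN).symm.toMonoidHom)) η z) *
        tr hqN ((red N q η)⁻¹ • z) g u := by
  set t := transp hqN z
  set t' := transp hqN ((red N q η)⁻¹ • z)
  set h : stabGroup N q (basePair : Pair q) :=
    ⟨_, transport_mem (isTransitiveFrom_pair (N := N) hqN) η z⟩ with hh
  have e : t⁻¹ • ((η : SL(2, ℤ)) • u) = (h : SL(2, ℤ)) • (t'⁻¹ • u) := by
    rw [← mul_smul, ← mul_smul]
    congr 1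
    simp only [hh, t, t', Subgroup.coe_mul, InvMemClass.coe_inv, mul_inv_cancel_right]
  show down g (t⁻¹ • _) = _
  rw [e, comp_down hqN hg h]
  rfl

/-- Weighted products of translates. -/
def prodTr (hqN : ¬ q ∣ N) (A : Pair q → Pair q → ℕ) (y : Pair q) (f : ℍ → ℂ) : ℍ → ℂ :=
  ∏ z, tr hqN z f ^ A y z

/-- The orbital operator on functions. -/
def opFun (hqN : ¬ q ∣ N) (A : Pair q → Pair q → ℕ) (f : ℍ → ℂ) : ℍ → ℂ :=
  up q (prodTr hqN A basePair f)

/-- Invariance of a natural kernel. -/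
def IsNatInvariant (A : Pair q → Pair q → ℕ) : Prop :=
  ∀ (g : Grp q) (y z : Pair q), A (g • y) (g • z) = A y z

omit [NeZero n] in
/-- An invariant natural kernel gives one modulo `n`. -/
theorem IsNatInvariant.cast {A : Pair q → Pair q → ℕ} (hA : IsNatInvariant A) :
    IsInvariant (fun y z => (A y z : ZMod n)) := fun g y z => by simp only [hA g y z]

/-- Orbital products commute with powers. -/
theorem opFun_pow (hqN : ¬ q ∣ N) (A : Pair q → Pair q → ℕ) (f : ℍ → ℂ) (m : ℕ) :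
    opFun hqN A (f ^ m) = opFun hqN A f ^ m := by
  funext τ
  simp only [opFun, up, prodTr, Finset.prod_apply, Pi.pow_apply, tr_pow, ← Finset.prod_pow,
    ← pow_mul, mul_comm m]

/-- The multiplier of an orbital product is the orbital operator of the multiplier. -/
theorem comp_opFun (hqN : ¬ q ∣ N) {A : Pair q → Pair q → ℕ} (hA : IsNatInvariant A)
    {g : ℍ → ℂ} {χ : Additive (Gamma0 (q ^ 2 * N)) →+ ZMod n}
    (hg : ∀ γ : Gamma0 (q ^ 2 * N),
      comp g γ = fun τ => rootPow n (χ (Additive.ofMul γ)) * g τ) (γ : Gamma0 (q ^ 2 * N)) :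
    comp (opFun hqN A g) γ =
      fun τ => rootPow n (opHom hqN (fun y z => (A y z : ZMod n)) hA.cast χ (Additive.ofMul γ)) *
        opFun hqN A g τ := by
  funext τ
  set η : Gamma0 N := ⟨conjT hqN γ, stabGroup_le (conjT hqN γ).2⟩
  have hb : red N q η • (basePair : Pair q) = basePair := red_smul_base (conjT hqN γ)
  simp only [KummerES.comp_apply, opFun, up]
  refine (congrArg (prodTr hqN A basePair g) (rep_infty_smul γ τ)).trans ?_
  rw [opHom_apply, KummerES.rootPow_sum]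
  set u := HeckeLattice.rep q (∞ : HeckeLattice.Idx q) • τ
  show prodTr hqN A basePair g ((η : SL(2, ℤ)) • u) = _
  simp only [prodTr, Finset.prod_apply, Pi.pow_apply, comp_tr hqN hg η, mul_pow,
    Finset.prod_mul_distrib]
  refine congrArg₂ (· * ·) (Finset.prod_congr rfl fun z _ => ?_) ?_
  · rw [KummerES.rootPow_natCast_mul]
  · refine Fintype.prod_equiv (MulAction.toPerm (red N q η)⁻¹) _ _ fun z => ?_
    rw [MulAction.toPerm_apply]
    refine congrArg (_ ^ ·) ?_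
    conv_rhs => rw [← hA (red N q η), hb, smul_inv_smul]

theorem comp_opFun_eq (hqN : ¬ q ∣ N) {A : Pair q → Pair q → ℕ} (hA : IsNatInvariant A)
    {f : ℍ → ℂ} (hf : ∀ γ ∈ Gamma0 (q ^ 2 * N), comp f γ = f) :
    ∀ γ ∈ Gamma0 (q ^ 2 * N), comp (opFun hqN A f) γ = opFun hqN A f := by
  intro γ hγ
  have h := comp_opFun (n := 1) (χ := 0) hqN hA (g := f) (fun γ => by
    rw [hf γ γ.2]; funext τ; rw [KummerES.rootPow_zmod_one, one_mul]) ⟨γ, hγ⟩
  rw [h]
  funext τ
  rw [KummerES.rootPow_zmod_one, one_mul]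

/-- Translating an orbital product gives the orbital product at another base pair. -/
theorem tr_opFun (hqN : ¬ q ∣ N) {A : Pair q → Pair q → ℕ} (hA : IsNatInvariant A)
    {f : ℍ → ℂ} (hf : ∀ γ ∈ Gamma0 (q ^ 2 * N), comp f γ = f) (y : Pair q) :
    tr hqN y (opFun hqN A f) = prodTr hqN A y f := by
  funext u
  set t := transporter (isTransitiveFrom_pair (N := N) hqN) y
  show down (up q _) ((t : SL(2, ℤ))⁻¹ • u) = _
  rw [down_up]
  show prodTr hqN A basePair f (((t⁻¹ : Gamma0 N) : SL(2, ℤ)) • u) = _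
  simp only [prodTr, Finset.prod_apply, Pi.pow_apply]
  have hg : ∀ γ : Gamma0 (q ^ 2 * N), comp f γ =
      fun τ => rootPow 1 ((0 : Additive (Gamma0 (q ^ 2 * N)) →+ ZMod 1) (Additive.ofMul γ)) * f τ :=
    fun γ => by
      rw [hf γ γ.2]; funext τ; rw [KummerES.rootPow_zmod_one, one_mul]
  simp only [comp_tr hqN hg, KummerES.rootPow_zmod_one, one_mul, map_inv, inv_inv]
  refine Fintype.prod_equiv (MulAction.toPerm (red N q t)) _ _ fun z => ?_
  rw [MulAction.toPerm_apply]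
  congr 1
  rw [← hA (red N q t) basePair z, red_transporter]

/-! ### Expansions -/

variable [NeZero q] [NeZero N]

theorem zetaC_mem (m : ℕ) [NeZero m] : zetaC m ∈ BB :=
  ModularAnalytic.mem_range_of_pow_eq_one _ (n := m)
    (KummerES.isPrimitiveRoot_zetaC m).pow_eq_one

local notation "W₀" => weak (Gamma0 (q ^ 2 * N)) (q ^ 2 * N) BB
local notation "W₁" => weak (⊥ : Subgroup SL(2, ℤ)) (q ^ 2 * N * q) BB

/-- `down` of a weak function of level `q² N` is weak. -/
theorem down_mem {f : ℍ → ℂ} (hf : f ∈ W₀) : down (q := q) f ∈ W₁ := by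
  refine ⟨hf.1.comp (mdifferentiable_smul (KummerES.det_rep_pos' _)), fun γ hγ => ?_, fun δ => ?_⟩
  · rw [Subgroup.mem_bot.1 hγ, KummerES.comp_one]
  obtain ⟨v, z, hv⟩ := KummerES.exists_rep_mul_SL ((0 : ZMod q) : HeckeLattice.Idx q) δ
  obtain ⟨c, e, hc, he, hcB, hqe⟩ :=
    KummerES.qL_rep_coeff_mem (ℓ := q) (L := q ^ 2 * N) z (zetaC_mem _)
  have : NeZero e := ⟨he⟩
  obtain ⟨s, hsB, hs⟩ := hf.2.2 v
  refine ⟨ModularCurve.qExpand ℂ e (KummerES.twist c hc s),
    KummerES.qExpand_mem_coeffSubring e fun i => ?_, ?_⟩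
  · rw [KummerES.twist_coeff]; exact mul_mem (hcB i) (hsB i)
  have h2 := hs.subst (L' := q ^ 2 * N * q) (fun τ => HeckeLattice.rep q z • τ) hc e hqe
  have h3 : comp (down (q := q) f) δ = comp f v ∘ fun τ => HeckeLattice.rep q z • τ := by
    funext τ
    show f (_ • (Matrix.SpecialLinearGroup.mapGL ℝ δ • τ)) =
      f (Matrix.SpecialLinearGroup.mapGL ℝ v • (HeckeLattice.rep q z • τ))
    rw [← mul_smul, ← mul_smul, hv]
  rw [h3]
  exact h2

/-- Translates of weak functions are weak. -/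
theorem tr_mem (hqN : ¬ q ∣ N) (z : Pair q) {f : ℍ → ℂ} (hf : f ∈ W₀) : tr hqN z f ∈ W₁ :=
  KummerES.comp_mem_weak (down_mem hf) _

theorem prodTr_mem (hqN : ¬ q ∣ N) (A : Pair q → Pair q → ℕ) (y : Pair q) {f : ℍ → ℂ}
    (hf : f ∈ W₀) : prodTr hqN A y f ∈ W₁ :=
  prod_mem fun z _ => pow_mem (tr_mem hqN z hf) _

/-- `up` of an invariant weak function is weak of level `q² N`. -/
theorem up_mem {F : ℍ → ℂ} (hF : F ∈ W₁)
    (hinv : ∀ γ ∈ Gamma0 (q ^ 2 * N), comp (up q F) γ = up q F) : up q F ∈ W₀ := by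
  refine ⟨hF.1.comp (mdifferentiable_smul (KummerES.det_rep_pos' _)), hinv, fun δ => ?_⟩
  obtain ⟨v, z, hv⟩ := KummerES.exists_rep_mul_SL (∞ : HeckeLattice.Idx q) δ
  obtain ⟨c, e, hc, he, hcB, hqe⟩ :=
    KummerES.qL_rep_coeff_mem (ℓ := q) (L := q ^ 2 * N * q) z (zetaC_mem _)
  have : NeZero e := ⟨he⟩
  obtain ⟨s, hsB, hs⟩ := hF.2.2 v
  have h2 := hs.subst (L' := q ^ 2 * N * q * q) (fun τ => HeckeLattice.rep q z • τ) hc e hqe
  have h3 : comp (up q F) δ = comp F v ∘ fun τ => HeckeLattice.rep q z • τ := by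
    funext τ
    show F (_ • (Matrix.SpecialLinearGroup.mapGL ℝ δ • τ)) =
      F (Matrix.SpecialLinearGroup.mapGL ℝ v • (HeckeLattice.rep q z • τ))
    rw [← mul_smul, ← mul_smul, hv]
  rw [← h3, mul_assoc (q ^ 2 * N) q q] at h2
  refine KummerES.exists_hasExp_of_comp_T_pow h2
    (KummerES.qExpand_mem_coeffSubring e fun i => ?_)
    (KummerES.comp_comp_T_pow (fun γ hγ => hinv γ (KummerDivisor.gamma_le_gamma0 _ hγ)) δ)
  rw [KummerES.twist_coeff]; exact mul_mem (hcB i) (hsB i)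

/-- Orbital products of weak functions are weak. -/
theorem opFun_mem (hqN : ¬ q ∣ N) {A : Pair q → Pair q → ℕ} (hA : IsNatInvariant A) {f : ℍ → ℂ}
    (hf : f ∈ W₀) : opFun hqN A f ∈ W₀ :=
  up_mem (prodTr_mem hqN A basePair hf) (comp_opFun_eq hqN hA hf.2.1)

end Fermat.Agent.ResidualCarayol.Geometry
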