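import Fermat.Agent.ResidualCarayol.Geometry.Embeddings
import Fermat.Agent.ResidualCarayol.Geometry.Translates

/-!
# Counts of invariant natural kernels

The rows of an invariant kernel have equal sums. For a pair fixed by the diagonal torus the sum
over the pairs of finite points is a multiple of `q - 1`, the torus acting freely on them.
-/

set_option autoImplicit false

noncomputable section

open scoped OnePoint

namespace Fermat.Agent.ResidualCarayol.Geometry

variable {q : ℕ} [Fact q.Prime] {A : Pair q → Pair q → ℕ}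

/-- All rows of an invariant kernel have the same sum. -/
theorem sum_row_eq (hA : IsNatInvariant A) (y : Pair q) : ∑ z, A y z = ∑ z, A basePair z := by
  obtain ⟨g, -, rfl⟩ := exists_smul_basePair y
  exact (Fintype.sum_equiv (MulAction.toPerm g) _ _ fun z => by
    rw [MulAction.toPerm_apply, hA]).symm

/-- A representative of each class of pairs. -/
def repPair (q : ℕ) [Fact q.Prime] : Fin 3 → Pair q :=
  ![basePair, ⟨((0 : ZMod q) : Line q), ((1 : ZMod q) : Line q), by simp⟩,
    ⟨∞, ((0 : ZMod q) : Line q), OnePoint.infty_ne_coe _⟩]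

/-- `repPair i` has class `i`. -/
theorem pairClass_repPair (i : Fin 3) : pairClass (repPair q i) = i := by
  fin_cases i <;> simp [pairClass, repPair, basePair]

theorem diagGrp_smul_repPair {c : ZMod q} (hc : c ≠ 0) {i : Fin 3} (hi : i ≠ 1) :
    diagGrp c hc • repPair q i = repPair q i := by
  fin_cases i
  · exact diagGrp_smul_basePair hc
  · exact absurd rfl hi
  · refine Pair.ext (diagGrp_smul_infty hc) ?_
    show diagGrp c hc • ((0 : ZMod q) : Line q) = ((0 : ZMod q) : Line q)
    rw [diagGrp_smul_coe, mul_zero]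

/-- The pair `(l t, l (t - 1))`. -/
def midPair (w : (ZMod q)ˣ × ZMod q) : Pair q :=
  ⟨((w.1 * w.2 : ZMod q) : Line q), ((w.1 * (w.2 - 1) : ZMod q) : Line q), fun h => by
    rw [OnePoint.coe_eq_coe, mul_sub, mul_one, eq_comm, sub_eq_self] at h
    exact w.1.ne_zero h⟩

theorem midPair_eq_smul (l : (ZMod q)ˣ) (t : ZMod q) :
    midPair (l, t) = diagGrp (l : ZMod q) l.ne_zero • midPair (1, t) := by
  refine Pair.ext ?_ ?_
  · show _ = diagGrp (l : ZMod q) l.ne_zero • ((((1 : (ZMod q)ˣ) : ZMod q) * t : ZMod q) : Line q)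
    rw [diagGrp_smul_coe, Units.val_one, one_mul]
    rfl
  · show _ = diagGrp (l : ZMod q) l.ne_zero •
      ((((1 : (ZMod q)ˣ) : ZMod q) * (t - 1) : ZMod q) : Line q)
    rw [diagGrp_smul_coe, Units.val_one, one_mul]
    rfl

theorem midPair_injective : Function.Injective (midPair (q := q)) := by
  rintro ⟨l, t⟩ ⟨l', t'⟩ h
  have h1 : (l : ZMod q) * t = (l' : ZMod q) * t' := OnePoint.coe_eq_coe.1 (congrArg Pair.fst h)
  have h2 : (l : ZMod q) * (t - 1) = (l' : ZMod q) * (t' - 1) :=
    OnePoint.coe_eq_coe.1 (congrArg Pair.snd h)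
  have hl : (l : ZMod q) = l' := by linear_combination h1 - h2
  rw [← hl] at h1
  exact Prod.ext (Units.ext hl) (mul_left_cancel₀ l.ne_zero h1)

/-- The pairs of finite points are the orbits of `(t, t - 1)` under the torus. -/
theorem sum_class_one (f : Pair q → ℕ) :
    ∑ z ∈ Finset.univ.filter (fun z => pairClass z = 1), f z =
      ∑ w : (ZMod q)ˣ × ZMod q, f (midPair w) := by
  symm
  refine Finset.sum_bij (fun w _ => midPair w) (fun w _ => ?_)
    (fun _ _ _ _ h => midPair_injective h) (fun z hz => ?_) (fun _ _ => rfl)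
  · rw [Finset.mem_filter, pairClass,
      if_neg (show (midPair w).fst ≠ ∞ from OnePoint.coe_ne_infty _),
      if_neg (show (midPair w).snd ≠ ∞ from OnePoint.coe_ne_infty _)]
    exact ⟨Finset.mem_univ _, rfl⟩
  · have h1 := (Finset.mem_filter.1 hz).2
    rw [pairClass] at h1
    by_cases hf : z.fst = ∞
    · rw [if_pos hf] at h1; exact absurd h1 (by decide)
    by_cases hs : z.snd = ∞
    · rw [if_neg hf, if_pos hs] at h1; exact absurd h1 (by decide)
    have hne := coord_sub_ne_zero z hf hs
    refine ⟨(Units.mk0 _ hne, coord z.fst / (coord z.fst - coord z.snd)), Finset.mem_univ _,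
      Pair.ext ?_ ?_⟩
    · refine Eq.trans ?_ (eq_coe_coord hf).symm
      show (((coord z.fst - coord z.snd) * _ : ZMod q) : Line q) = _
      rw [mul_div_cancel₀ _ hne]
    · refine Eq.trans ?_ (eq_coe_coord hs).symm
      show (((coord z.fst - coord z.snd) * (_ - 1) : ZMod q) : Line q) = _
      rw [mul_sub, mul_div_cancel₀ _ hne, mul_one, sub_sub_cancel]

/-- `q - 1` divides the middle counts of the two outer rows. -/
theorem sub_one_dvd_sum_mid (hA : IsNatInvariant A) {i : Fin 3} (hi : i ≠ 1) :
    (q - 1) ∣ ∑ z ∈ Finset.univ.filter (fun z => pairClass z = 1), A (repPair q i) z := by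
  rw [sum_class_one, Fintype.sum_prod_type_right]
  refine Finset.dvd_sum fun t _ => ?_
  have h : ∀ l : (ZMod q)ˣ,
      A (repPair q i) (midPair (l, t)) = A (repPair q i) (midPair (1, t)) := fun l => by
    rw [midPair_eq_smul]
    conv_lhs => rw [← diagGrp_smul_repPair (q := q) l.ne_zero hi, hA]
  rw [Finset.sum_congr rfl fun l _ => h l, Finset.sum_const, Finset.card_univ, ZMod.card_units,
    smul_eq_mul]
  exact dvd_mul_right _ _

end Fermat.Agent.ResidualCarayol.Geometry
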