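import Fermat.Agent.KummerDivisor.Maps
import Fermat.Agent.JacCompare.Galois
import Fermat.Agent.CarayolReduction.Descent

/-!
# Kummer functions of characters

A Kummer function of a character `χ : Γ₀(M) → ℤ/p` is `g ^ p` for a root `g` of `χ` with algebraic
power, up to `p`-th powers. It determines the character. If `χ` is fixed by a group of Galois
elements, one of its Kummer functions has constants in the fixed field.
-/

set_option autoImplicit false

noncomputable section

open UpperHalfPlane CongruenceSubgroup AlgebraicCurve ModularCurve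
open ModularCurve.Period (IsParabolicHom parabolicHoms)
open scoped MatrixGroups Manifold

namespace Fermat.Agent.ResidualCarayol

open KummerDivisor (IsAlgRoot)
open CarayolReduction (galAct leadCoeff)
open HeckeDatum (ParChar)

local notation "Qbar" => AlgebraicClosure ℚ
local notation "Gal" => AlgebraicClosure ℚ ≃ₐ[ℚ] AlgebraicClosure ℚ
local notation "ι₀" => AlgHom.toRingHom complexEmbedding

variable {M : ℕ} [NeZero M] {p : ℕ} [NeZero p]

/-- `f` is the `p`-th power of a root of `χ`, up to `p`-th powers of functions. -/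
def IsKummerFn (χ : Additive (Gamma0 M) →+ ZMod p) (f : modularFunctionFieldBar M) : Prop :=
  ∃ (g : ℍ → ℂ) (h : IsAlgRoot ι₀ χ g) (z : modularFunctionFieldBar M),
    z ≠ 0 ∧ f = h.fn * z ^ p

variable {χ χ' : Additive (Gamma0 M) →+ ZMod p} {f f' : modularFunctionFieldBar M}

theorem isKummerFn_of_root {g : ℍ → ℂ} (h : IsAlgRoot ι₀ χ g) : IsKummerFn χ h.fn :=
  ⟨g, h, 1, one_ne_zero, by rw [one_pow, mul_one]⟩

namespace IsKummerFn

/-- Kummer functions are not zero. -/
theorem ne_zero (h : IsKummerFn χ f) : f ≠ 0 := by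
  obtain ⟨g, h, z, hz, rfl⟩ := h
  exact mul_ne_zero h.fn_ne_zero (pow_ne_zero p hz)

/-- The class of a Kummer function modulo `p`-th powers consists of Kummer functions. -/
theorem mul_pow (h : IsKummerFn χ f) {z : modularFunctionFieldBar M} (hz : z ≠ 0) :
    IsKummerFn χ (f * z ^ p) := by
  obtain ⟨g, h, w, hw, rfl⟩ := h
  exact ⟨g, h, w * z, mul_ne_zero hw hz, by rw [_root_.mul_pow, mul_assoc]⟩

/-- The product of Kummer functions is a Kummer function of the sum. -/
theorem add (h : IsKummerFn χ f) (h' : IsKummerFn χ' f') : IsKummerFn (χ + χ') (f * f') := by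
  obtain ⟨g, h, z, hz, rfl⟩ := h
  obtain ⟨g', h', z', hz', rfl⟩ := h'
  exact ⟨_, h.mul h', z * z', mul_ne_zero hz hz', by rw [h.fn_mul h', _root_.mul_pow]; ring⟩

/-- Powers of Kummer functions are Kummer functions of the multiples. -/
theorem nsmul (h : IsKummerFn χ f) (n : ℕ) : IsKummerFn (n • χ) (f ^ n) := by
  obtain ⟨g, h, z, hz, rfl⟩ := h
  exact ⟨_, h.pow n, z ^ n, pow_ne_zero n hz, by
    rw [h.fn_pow, _root_.mul_pow, ← pow_mul, ← pow_mul, mul_comm p n]⟩

theorem congr_char (h : IsKummerFn χ f) (hχ : χ = χ') : IsKummerFn χ' f := hχ ▸ h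

end IsKummerFn

/-- Two Kummer functions of one character differ by a `p`-th power. -/
theorem IsKummerFn.exists_eq_mul_pow (h : IsKummerFn χ f) (h' : IsKummerFn χ f') :
    ∃ z : modularFunctionFieldBar M, z ≠ 0 ∧ f' = f * z ^ p := by
  obtain ⟨g, h, w, hw, rfl⟩ := h
  obtain ⟨g', h', w', hw', rfl⟩ := h'
  obtain ⟨y, hy, he⟩ := h'.exists_fn_eq_mul_pow h
  refine ⟨y * w' / w, div_ne_zero (mul_ne_zero hy hw') hw, ?_⟩
  rw [he, div_pow, _root_.mul_pow]
  field_simp

omit [NeZero M] in
theorem isAlgRoot_one : IsAlgRoot (N := M) (P := p) ι₀ 0 1 :=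
  ⟨one_ne_zero, mdifferentiable_const, fun γ => funext fun τ => by
    rw [AddMonoidHom.zero_apply, KummerES.rootPow_zero, one_mul]; rfl,
   by rw [one_pow]; exact one_mem _⟩

/-- The `p`-th powers are the Kummer functions of the trivial character. -/
theorem isKummerFn_zero {z : modularFunctionFieldBar M} (hz : z ≠ 0) :
    IsKummerFn (0 : Additive (Gamma0 M) →+ ZMod p) (z ^ p) :=
  ⟨1, isAlgRoot_one, z, hz, by
    rw [IsAlgRoot.fn,
      show (⟨(1 : ℍ → ℂ) ^ p, isAlgRoot_one.pow_mem⟩ :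
        KummerES.weak (Gamma0 M) M (RingHom.range ι₀)) = 1 from Subtype.ext (one_pow p),
      map_one, one_mul]⟩

/-- A character with a constant times a `p`-th power among its Kummer functions is trivial. -/
theorem IsKummerFn.eq_zero {c : Qbar} {H : modularFunctionFieldBar M}
    (h : IsKummerFn χ (algebraMap Qbar (modularFunctionFieldBar M) c * H ^ p)) : χ = 0 := by
  obtain ⟨z, hz⟩ := IsAlgClosed.exists_pow_nat_eq c (Nat.pos_of_ne_zero (NeZero.ne p))
  have h0 := h.ne_zero
  obtain ⟨g, hg, w, hw, he⟩ := h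
  rw [← hz, map_pow, ← _root_.mul_pow] at he h0
  set H' := algebraMap Qbar (modularFunctionFieldBar M) z * H
  have hfn : hg.fn = (H' / w) ^ p := by
    rw [div_pow, he, mul_div_cancel_right₀ _ (pow_ne_zero p hw)]
  obtain ⟨a, b, hb, hab⟩ := ModularAnalytic.exists_eq_div M M ι₀ dvd_rfl (H' / w)
  have hfun : (⟨g ^ p, hg.pow_mem⟩ : KummerES.weak (Gamma0 M) M (RingHom.range ι₀)) * b ^ p =
      a ^ p := by
    refine ModularAnalytic.toField_injective M M ι₀ ?_
    rw [map_mul, map_pow, map_pow]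
    show hg.fn * _ = _
    rw [hfn, hab, div_pow, div_mul_cancel₀ _ (pow_ne_zero p hb)]
  have hv : (g * b.1) ^ p = a.1 ^ p := by
    have h1 := congrArg Subtype.val hfun
    simp only [MulMemClass.coe_mul, SubmonoidClass.coe_pow] at h1
    rw [← h1, _root_.mul_pow]
  exact hg.eq_zero_of_mul_pow_eq (fun h1 => hb (by rw [h1, map_zero])) hv

/-- A character with a `p`-th power as Kummer function is zero. -/
theorem IsKummerFn.eq_zero_of_pow {H : modularFunctionFieldBar M} (h : IsKummerFn χ (H ^ p)) :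
    χ = 0 :=
  IsKummerFn.eq_zero (c := 1) (by rwa [map_one, one_mul])

/-- Every parabolic character has a Kummer function. -/
theorem exists_isKummerFn (χ : ParChar M p) : ∃ f, IsKummerFn χ.1 f := by
  obtain ⟨g, h⟩ := JacCompare.exists_isAlgRoot M p χ
  exact ⟨_, isKummerFn_of_root h⟩

/-- Linear combinations. -/
theorem IsKummerFn.sum {κ : Type*} (s : Finset κ) (χs : κ → Additive (Gamma0 M) →+ ZMod p)
    (fs : κ → modularFunctionFieldBar M) (n : κ → ℕ) (h : ∀ i ∈ s, IsKummerFn (χs i) (fs i)) :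
    IsKummerFn (∑ i ∈ s, n i • χs i) (∏ i ∈ s, fs i ^ n i) := by
  classical
  induction s using Finset.induction_on with
  | empty =>
    rw [Finset.sum_empty, Finset.prod_empty, ← one_pow p]
    exact isKummerFn_zero one_ne_zero
  | insert a s ha ih =>
    rw [Finset.sum_insert ha, Finset.prod_insert ha]
    exact ((h a (Finset.mem_insert_self a s)).nsmul (n a)).add
      (ih fun i hi => h i (Finset.mem_insert_of_mem hi))

section Galois

/-- Conjugate Kummer functions: the statement for one root suffices. -/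
theorem IsKummerFn.galAct_of_root {σ : Gal} {g g' : ℍ → ℂ} {h₁ : IsAlgRoot ι₀ χ g}
    {h₂ : IsAlgRoot ι₀ χ' g'}
    (hconj : (h₂.fn : LaurentSeries Qbar) = coeffMap (σ : Qbar →+* Qbar) h₁.fn)
    (h : IsKummerFn χ f) : IsKummerFn χ' (galAct M σ • f) := by
  obtain ⟨z, hz, rfl⟩ := (isKummerFn_of_root h₁).exists_eq_mul_pow h
  have he : galAct M σ • h₁.fn = h₂.fn :=
    Subtype.ext ((CarayolReduction.coe_galAct σ h₁.fn).trans hconj.symm)
  rw [smul_mul', smul_pow', he]
  exact (isKummerFn_of_root h₂).mul_pow ((smul_ne_zero_iff_ne _).mpr hz)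

/-- The Galois action on characters, on Kummer functions. -/
theorem IsKummerFn.galAct {χ : ParChar M p} {f : modularFunctionFieldBar M}
    (h : IsKummerFn χ.1 f) (σ : Gal) :
    IsKummerFn (KummerES.parRep (KummerES.isDiagStable_gamma0 M) σ χ).1 (galAct M σ • f) := by
  obtain ⟨g, g', h₁, h₂, hconj⟩ := JacCompare.exists_conj_algRoot M p σ χ
  exact h.galAct_of_root hconj

/-- The action of Galois modules with algebraic roots, on Kummer functions. -/
theorem IsKummerFn.galAct_rep {ℓ : ℕ} [NeZero ℓ] {G : KummerES.Gamma0Modules M ℓ}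
    (hG : KummerDivisor.HasAlgebraicRoots G ι₀) {k : ℕ} {χ : ParChar M (ℓ ^ k)}
    {f : modularFunctionFieldBar M} (h : IsKummerFn χ.1 f) (σ : Gal) :
    IsKummerFn (G.rep k σ χ).1 (CarayolReduction.galAct M σ • f) := by
  obtain ⟨g, g', h₁, h₂, hconj⟩ := hG k σ χ
  exact h.galAct_of_root hconj

open scoped Classical in
/-- A character fixed by `I` has a Kummer function with constants in the fixed field of `I`. -/
theorem exists_descended {I : Subgroup Gal} {f₀ : modularFunctionFieldBar M}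
    (h₀ : IsKummerFn χ f₀)
    (hI : ∀ σ ∈ I, ∀ f, IsKummerFn χ f → IsKummerFn χ (CarayolReduction.galAct M σ • f)) :
    ∃ f, IsKummerFn χ f ∧
      (f : LaurentSeries Qbar) ∈ Carayol.levelField (IntermediateField.fixedField I) M ∧
      ∀ σ ∈ I, CarayolReduction.galAct M σ • f = f := by
  open CarayolReduction in
  have hp : p ≠ 0 := NeZero.ne p
  obtain ⟨d, hd⟩ := IsAlgClosed.exists_pow_nat_eq (leadCoeff f₀)⁻¹ (Nat.pos_of_ne_zero hp)
  have hd0 : algebraMap Qbar (modularFunctionFieldBar M) d ≠ 0 := by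
    refine (map_ne_zero _).mpr fun h => inv_ne_zero (leadCoeff_ne_zero h₀.ne_zero) ?_
    rw [← hd, h, zero_pow hp]
  have hf : IsKummerFn χ (f₀ * algebraMap Qbar (modularFunctionFieldBar M) d ^ p) :=
    h₀.mul_pow hd0
  have hflc : leadCoeff (f₀ * algebraMap Qbar (modularFunctionFieldBar M) d ^ p) = 1 := by
    rw [leadCoeff_mul, leadCoeff_pow, leadCoeff_algebraMap, hd,
      mul_inv_cancel₀ (leadCoeff_ne_zero h₀.ne_zero)]
  set f := f₀ * algebraMap Qbar (modularFunctionFieldBar M) d ^ p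
  clear_value f
  have hu : ∀ σ ∈ I, ∃ u : modularFunctionFieldBar M,
      u ≠ 0 ∧ leadCoeff u = 1 ∧ galAct M σ • f = f * u ^ p := by
    intro σ hσ
    obtain ⟨z, hz, he⟩ := hf.exists_eq_mul_pow (hI σ hσ f hf)
    have hlc : leadCoeff z ^ p = 1 := by
      have := congrArg leadCoeff he
      rw [leadCoeff_galAct, leadCoeff_mul, leadCoeff_pow, hflc, map_one, one_mul] at this
      exact this.symm
    refine ⟨z * algebraMap Qbar _ (leadCoeff z)⁻¹,
      mul_ne_zero hz ((map_ne_zero _).mpr (inv_ne_zero (leadCoeff_ne_zero hz))),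
      by rw [leadCoeff_mul, leadCoeff_algebraMap, mul_inv_cancel₀ (leadCoeff_ne_zero hz)], ?_⟩
    rw [he, _root_.mul_pow, ← map_pow, inv_pow, hlc, inv_one, map_one, mul_one]
  choose! u hu0 hulc huf using hu
  have hcoc : ∀ σ ∈ I, ∀ τ ∈ I, u (σ * τ) = galAct M σ • u τ * u σ := by
    intro σ hσ τ hτ
    refine eq_of_pow_eq hp ?_ (hulc _ (mul_mem hσ hτ)) ?_
    · refine mul_left_cancel₀ hf.ne_zero ?_
      rw [← huf _ (mul_mem hσ hτ)]
      rw [show galAct M (σ * τ) = galAct M σ * galAct M τ from map_mul _ _ _, mul_smul,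
        huf τ hτ, smul_mul', smul_pow', huf σ hσ, _root_.mul_pow]
      ring
    · rw [leadCoeff_mul, leadCoeff_galAct, hulc τ hτ, map_one, hulc σ hσ, one_mul]
  obtain ⟨S, hS⟩ := exists_determining f
  set K' := IntermediateField.adjoin ℚ (S : Set Qbar)
  have : FiniteDimensional ℚ K' := finiteDimensional_adjoin_finset S
  have hdet : ∀ σ ∈ I, ∀ τ ∈ I, (∀ a : K', σ (a : Qbar) = τ (a : Qbar)) → u σ = u τ := by
    intro σ hσ τ hτ h
    refine eq_of_pow_eq hp (mul_left_cancel₀ hf.ne_zero ?_) (hulc σ hσ) (hulc τ hτ)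
    rw [← huf σ hσ, ← huf τ hτ]
    refine Subtype.ext ?_
    rw [coe_galAct, coe_galAct]
    exact hS σ τ fun a ha => h ⟨a, IntermediateField.subset_adjoin ℚ _ ha⟩
  obtain ⟨a, ha⟩ := exists_sum_restrSet_ne_zero I K'
    (algebraMap Qbar (modularFunctionFieldBar M)) (fun e => u (liftRestr I K' e))
    (fun e he => hu0 _ (liftRestr_spec I K' he).1)
  set h := ∑ e ∈ restrSet I K', u (liftRestr I K' e) * algebraMap Qbar _ (e a) with hhdef
  have hinv : ∀ σ ∈ I, galAct M σ • h * u σ = h := by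
    intro σ hσ
    rw [hhdef, Finset.smul_sum, Finset.sum_mul]
    refine Eq.trans ?_ (sum_restrSet_comp I K'
      (fun e => u (liftRestr I K' e) * algebraMap Qbar _ (e a)) hσ)
    refine Finset.sum_congr rfl fun e he => ?_
    have he' : (σ : Qbar →ₐ[ℚ] Qbar).comp e ∈ restrSet I K' := by
      obtain ⟨τ, hτ, rfl⟩ := (mem_restrSet I K').mp he
      exact (mem_restrSet I K').mpr ⟨σ * τ, mul_mem hσ hτ, AlgHom.ext fun _ => rfl⟩
    obtain ⟨hl, hl'⟩ := liftRestr_spec I K' he
    obtain ⟨hm, hm'⟩ := liftRestr_spec I K' he'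
    have hu' : u (σ * liftRestr I K' e) = u (liftRestr I K' ((σ : Qbar →ₐ[ℚ] Qbar).comp e)) := by
      refine hdet _ (mul_mem hσ hl) _ hm fun b => ?_
      rw [hm' b, AlgEquiv.mul_apply, hl' b]
      rfl
    rw [← hu', hcoc σ hσ _ hl, smul_mul', galAct_algebraMap]
    show _ = _ * algebraMap Qbar _ (σ (e a))
    ring
  have hfix : ∀ σ ∈ I, galAct M σ • (f * h ^ p) = f * h ^ p := by
    intro σ hσ
    rw [smul_mul', smul_pow', huf σ hσ, mul_assoc, ← _root_.mul_pow, mul_comm (u σ), hinv σ hσ]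
  refine ⟨f * h ^ p, hf.mul_pow ha, mem_levelField_of_fixed M I _ fun σ hσ => ?_, hfix⟩
  rw [← coe_galAct]
  exact congrArg Subtype.val (hfix σ hσ)

/-- The same for Galois modules with algebraic roots. -/
theorem exists_descended_rep {ℓ : ℕ} [NeZero ℓ] {G : KummerES.Gamma0Modules M ℓ}
    (hG : KummerDivisor.HasAlgebraicRoots G ι₀) {k : ℕ} {I : Subgroup Gal}
    (χ : ParChar M (ℓ ^ k)) (hfix : ∀ σ ∈ I, G.rep k σ χ = χ) :
    ∃ f, IsKummerFn χ.1 f ∧
      (f : LaurentSeries Qbar) ∈ Carayol.levelField (IntermediateField.fixedField I) M ∧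
      ∀ σ ∈ I, CarayolReduction.galAct M σ • f = f := by
  obtain ⟨f₀, h₀⟩ := exists_isKummerFn χ
  exact exists_descended h₀ fun σ hσ f hf =>
    (hf.galAct_rep hG σ).congr_char (congrArg Subtype.val (hfix σ hσ))

end Galois

end Fermat.Agent.ResidualCarayol
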