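import Fermat.Agent.ResidualCarayol.Geometry.Expansions
import Fermat.Agent.ResidualCarayol.Geometry.KummerFn

/-!
# Orbital products on the function field

An invariant natural kernel acts multiplicatively on the function field of level `q²N`. Along every
expansion `psi y` it is the product of the expansions `psi z` with exponents `A y z`. It sends
Kummer functions of a character to Kummer functions of the orbital operator applied to it.
-/

set_option autoImplicit false

noncomputable section

open UpperHalfPlane CongruenceSubgroup ModularCurve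
open Fermat.Agent.KummerES (comp weak)
open Fermat.Agent.KummerDivisor (IsAlgRoot)
open scoped MatrixGroups Manifold OnePoint

namespace Fermat.Agent.ResidualCarayol.Geometry

local notation "Qbar" => AlgebraicClosure ℚ
local notation "ι₀" => AlgHom.toRingHom complexEmbedding
local notation "BB" => RingHom.range (ι₀ : Qbar →+* ℂ)

variable {N q : ℕ} [Fact q.Prime] [NeZero q] [NeZero N]

local notation "W₀" => weak (Gamma0 (q ^ 2 * N)) (q ^ 2 * N) BB
local notation "𝔽" => modularFunctionFieldBar (q ^ 2 * N)
local notation "toF" => ModularAnalytic.toField (q ^ 2 * N) (q ^ 2 * N) ι₀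

variable (hq : q.Prime) (hqN : ¬ q ∣ N) {A : Pair q → Pair q → ℕ} (hA : IsNatInvariant A)

/-- The orbital product on invariant functions. -/
def opWeak (f : W₀) : W₀ := ⟨opFun hqN A f.1, opFun_mem hqN hA f.2⟩

/-- The orbital product of an invariant function along `psi y`. -/
theorem psi_toField_opWeak (y : Pair q) (f : W₀) :
    psi hq hqN y (toF (opWeak hqN hA f)) = ∏ z, psi hq hqN z (toF f) ^ A y z := by
  have key : psiC hq hqN y (toF (opWeak hqN hA f)) = ∏ z, psiC hq hqN z (toF f) ^ A y z := by
    simp only [← expTr_eq hq hqN, ← map_pow]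
    simp only [expTr, RingHom.comp_apply, ← map_prod]
    refine congrArg _ (Subtype.ext ?_)
    rw [trHom_coe]
    show tr hqN y (opFun hqN A f.1) = _
    rw [tr_opFun hqN hA f.2.2.1, SubmonoidClass.coe_finsetProd]
    rfl
  simp only [psiC_apply, ← map_pow, ← map_prod] at key
  have key' := ModularFunctionField.coeffMap_injective _ (RingHom.injective _)
    (qExpand_injective _ key)
  simpa only [map_pow] using key'

include hA in
/-- Every function has an orbital product. -/
theorem exists_opField (x : 𝔽) :
    ∃ w : 𝔽, ∀ y, psi hq hqN y w = ∏ z, psi hq hqN z x ^ A y z := by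
  obtain ⟨a, b, -, rfl⟩ := ModularAnalytic.exists_eq_div (q ^ 2 * N) (q ^ 2 * N) ι₀ dvd_rfl x
  refine ⟨toF (opWeak hqN hA a) / toF (opWeak hqN hA b), fun y => ?_⟩
  simp only [map_div₀, psi_toField_opWeak, div_pow, Finset.prod_div_distrib]

/-- Functions are determined by their expansion at the base pair. -/
theorem eq_of_psi_eq {w w' : 𝔽} (h : psi hq hqN basePair w = psi hq hqN basePair w') : w = w' :=
  (psi hq hqN (basePair : Pair q)).toRingHom.injective h

/-- The orbital product on the function field. -/
def opField : 𝔽 →* 𝔽 where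
  toFun x := (exists_opField hq hqN hA x).choose
  map_one' := eq_of_psi_eq hq hqN (by
    rw [(exists_opField hq hqN hA 1).choose_spec, map_one]
    simp)
  map_mul' x x' := eq_of_psi_eq hq hqN (by
    rw [map_mul, (exists_opField hq hqN hA _).choose_spec,
      (exists_opField hq hqN hA x).choose_spec, (exists_opField hq hqN hA x').choose_spec,
      ← Finset.prod_mul_distrib]
    simp only [map_mul, mul_pow])

/-- **The orbital product along every expansion.** -/
theorem psi_opField (y : Pair q) (x : 𝔽) :
    psi hq hqN y (opField hq hqN hA x) = ∏ z, psi hq hqN z x ^ A y z :=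
  (exists_opField hq hqN hA x).choose_spec y

theorem coe_opField (x : 𝔽) :
    (opField hq hqN hA x : LaurentSeries Qbar) = ∏ z, psi hq hqN z x ^ A basePair z := by
  rw [← psi_base hq hqN, psi_opField]

theorem opField_ne_zero {x : 𝔽} (hx : x ≠ 0) : opField hq hqN hA x ≠ 0 := fun h => by
  have := psi_opField hq hqN hA basePair x
  rw [h, map_zero] at this
  exact Finset.prod_ne_zero_iff.2 (fun z _ => pow_ne_zero _ ((map_ne_zero _).2 hx)) this.symm

theorem opField_toField (f : W₀) : opField hq hqN hA (toF f) = toF (opWeak hqN hA f) :=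
  eq_of_psi_eq hq hqN (by rw [psi_opField, psi_toField_opWeak])

/-- The orbital product commutes with the Galois action on coefficients. -/
theorem arithmeticRingAut_opField (σ : Qbar ≃ₐ[ℚ] Qbar) (x : 𝔽) :
    arithmeticRingAut (modularFunctionFieldFull (q ^ 2 * N)) σ (opField hq hqN hA x) =
      opField hq hqN hA (arithmeticRingAut (modularFunctionFieldFull (q ^ 2 * N)) σ x) := by
  obtain ⟨c, hcop, hc⟩ := exists_map_rootQ (q := q) σ
  have hc0 : (c : ZMod q) ≠ 0 := fun h =>
    hq.coprime_iff_not_dvd.1 hcop.symm ((ZMod.natCast_eq_zero_iff _ _).1 h)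
  refine Subtype.ext ?_
  rw [coe_arithmeticRingAut_apply, coe_opField, coe_opField, map_prod]
  refine Fintype.prod_equiv (MulAction.toPerm (diagGrp (c : ZMod q) hc0)) _ _ fun z => ?_
  rw [MulAction.toPerm_apply, map_pow, ← hA (diagGrp (c : ZMod q) hc0) basePair z,
    diagGrp_smul_basePair]
  exact congrArg (· ^ _) (coeffMap_psi hq hqN hc hc0 z x)

variable {Av : ValuationSubring Qbar}

/-- The orbital product preserves the field of inertia invariants. -/
theorem opField_mem_levelField {x : 𝔽}
    (hx : (x : LaurentSeries Qbar) ∈ Carayol.levelField (Carayol.inertiaField Av) (q ^ 2 * N)) :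
    (opField hq hqN hA x : LaurentSeries Qbar) ∈
      Carayol.levelField (Carayol.inertiaField Av) (q ^ 2 * N) := by
  refine CarayolFF.mem_levelField_of_fixed (opField hq hqN hA x).2 fun σ hσ => ?_
  rw [← coe_arithmeticRingAut_apply, arithmeticRingAut_opField,
    show arithmeticRingAut (modularFunctionFieldFull (q ^ 2 * N)) σ x = x from
      Subtype.ext ((coe_arithmeticRingAut_apply _ σ x).trans
        (CarayolFF.coeffMap_levelField hσ hx))]

/-- The orbital product preserves the model. -/
theorem opField_mem_model {x : 𝔽} (hx : x ∈ Carayol.model Av (q ^ 2 * N)) :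
    opField hq hqN hA x ∈ Carayol.model Av (q ^ 2 * N) := by
  refine CarayolFF.mem_model_of_integral
    (opField_mem_levelField hq hqN hA (CarayolFF.levelField_of_mem_model hx)) ?_
  rw [coe_opField]
  exact IsIntegral.prod _ fun z _ => (isIntegral_psi_of_model hq hqN z hx).pow _

section Roots

omit [NeZero q] [NeZero N] in
theorem mdiff_opFun (A : Pair q → Pair q → ℕ) {g : ℍ → ℂ} (hg : MDiff g) :
    MDiff (opFun hqN A g) := by
  refine MDifferentiable.comp (g := prodTr hqN A basePair g) ?_
    (mdifferentiable_smul (KummerES.det_rep_pos' _))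
  refine Finset.prod_induction _ (fun F : ℍ → ℂ => MDiff F) (fun _ _ h h' => h.mul h')
    mdifferentiable_const fun z _ => ?_
  induction A basePair z with
  | zero => rw [pow_zero]; exact mdifferentiable_const
  | succ n ih => rw [pow_succ]; exact ih.mul (mdiff_tr hqN z hg)

variable {p : ℕ} [NeZero p] {χ : Additive (Gamma0 (q ^ 2 * N)) →+ ZMod p}

include hq hA in
/-- The orbital product of a root is a root of the orbital operator applied to the character. -/
theorem isAlgRoot_opFun {g : ℍ → ℂ} (h : IsAlgRoot ι₀ χ g) :
    IsAlgRoot ι₀ (opHom hqN (fun y z => (A y z : ZMod p)) hA.cast χ) (opFun hqN A g) := by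
  refine ⟨fun h0 => ?_, mdiff_opFun hqN A h.holo, comp_opFun hqN hA h.comp_eq, ?_⟩
  · refine opField_ne_zero hq hqN hA h.fn_ne_zero ?_
    rw [IsAlgRoot.fn, opField_toField]
    refine (congrArg toF (Subtype.ext ?_)).trans (map_zero _)
    show opFun hqN A (g ^ p) = 0
    rw [opFun_pow, h0, zero_pow (NeZero.ne p)]
  · rw [← opFun_pow]
    exact opFun_mem hqN hA h.pow_mem

include hq in
/-- Kummer functions are carried along. -/
theorem isKummerFn_opField {f : 𝔽} (h : IsKummerFn χ f) :
    IsKummerFn (opHom hqN (fun y z => (A y z : ZMod p)) hA.cast χ) (opField hq hqN hA f) := by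
  obtain ⟨g, h, z, hz, rfl⟩ := h
  refine ⟨_, isAlgRoot_opFun hq hqN hA h, _, opField_ne_zero hq hqN hA hz, ?_⟩
  rw [map_mul, map_pow]
  refine congrArg (· * _) ?_
  rw [IsAlgRoot.fn, IsAlgRoot.fn, opField_toField]
  exact congrArg toF (Subtype.ext (opFun_pow hqN A g p))

end Roots

end Fermat.Agent.ResidualCarayol.Geometry
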