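import Fermat.Agent.Carayol.Local.Divisible
import Fermat.Agent.Carayol.Upper
import Fermat.Agent.ResidualCarayol.Geometry.Abstract
import Fermat.Agent.ResidualCarayol.Geometry.Counts
import Fermat.Agent.ResidualCarayol.Geometry.Operator
import Fermat.Agent.ResidualCarayol.Geometry.Orders

/-!
# Orbital products on the three-component model at a rigid level

At a rigidified level an orbital product with class sums divisible by `p`, applied three times to a
Kummer function with unramified constants, gives a constant times a `p`-th power.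
-/

set_option autoImplicit false

noncomputable section

open CongruenceSubgroup ModularCurve AlgebraicCurve
open Fermat.Agent.CarayolFF
open Fermat.Agent.Carayol
open Fermat.Agent.Conn (ThreeSheet)
open scoped MatrixGroups OnePoint

namespace Fermat.Agent.ResidualCarayol.Geometry

local notation "Qbar" => AlgebraicClosure ℚ

section Instance

variable {Av : ValuationSubring Qbar} {q N : ℕ} [Fact q.Prime] [NeZero q] [NeZero N]
  {hAv : Av.LiesOverPrime q} {hq : q.Prime} {hqN : ¬ q ∣ N}

variable (hq hqN) in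
/-- The orbital product on the field of inertia invariants. -/
def opLevel {A : Pair q → Pair q → ℕ} (hA : IsNatInvariant A) :
    levelField (inertiaField Av) (q ^ 2 * N) →* levelField (inertiaField Av) (q ^ 2 * N) where
  toFun x := ⟨(opField hq hqN hA (Local.levelToBar (q ^ 2 * N) Av x) : LaurentSeries Qbar),
    opField_mem_levelField hq hqN hA x.2⟩
  map_one' := Subtype.ext (by simp only [map_one]; rfl)
  map_mul' x y := Subtype.ext (by simp only [map_mul]; rfl)

theorem levelToBar_opLevel {A : Pair q → Pair q → ℕ} (hA : IsNatInvariant A)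
    (x : levelField (inertiaField Av) (q ^ 2 * N)) :
    Local.levelToBar (q ^ 2 * N) Av (opLevel hq hqN hA x) =
      opField hq hqN hA (Local.levelToBar (q ^ 2 * N) Av x) :=
  rfl

/-- The orbital product preserves the model. -/
theorem opLevel_mem_modelAlg {A : Pair q → Pair q → ℕ} (hA : IsNatInvariant A)
    {b : levelField (inertiaField Av) (q ^ 2 * N)} (hb : b ∈ Local.modelAlg (q ^ 2 * N) Av) :
    opLevel hq hqN hA b ∈ Local.modelAlg (q ^ 2 * N) Av := by
  rw [Local.mem_modelAlg_iff] at hb ⊢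
  rw [← Local.coe_levelToBar (q ^ 2 * N) b] at hb
  rw [← Local.coe_levelToBar (q ^ 2 * N) (opLevel hq hqN hA b), levelToBar_opLevel]
  exact Local.mem_model_iff_mem_modelSubring.mp
    (opField_mem_model hq hqN hA (Local.mem_model_iff_mem_modelSubring.mpr hb))

variable (D : BaseData Av q N hAv hq) [IsIntegrallyClosed (redBase Av N)] (U : UpperData hqN D)
  [IsLocalRing (unramInt Av)] [IsNoetherianRing (unramInt Av)]

/-- The orbital product as an operator of translates on the three-component model. -/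
def opData {A : Pair q → Pair q → ℕ} (hA : IsNatInvariant A) :
    OpData (threeSheet D U) (Pair q) (LaurentSeries Qbar)
      (LaurentSeries (IsLocalRing.ResidueField Av)) where
  A := A
  psi z := (psi hq hqN z).toRingHom.comp (Local.levelToBar (q ^ 2 * N) Av)
  intS := (resData Av).intSeries
  red := (resData Av).redSeries
  iota := (redBase Av N).subtype
  iota_inj := Subtype.val_injective
  cls := pairClass
  rep := repPair q
  cls_rep := pairClass_repPair
  mem_intS z b := (exists_redSeries_psi hq hqN hAv z (toModel Av (q ^ 2 * N) b)).1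
  red_psi z b := (exists_redSeries_psi hq hqN hAv z (toModel Av (q ^ 2 * N) b)).2
  op := opLevel hq hqN hA
  op_mem b := opLevel_mem_modelAlg hA b.2
  psi_op y f := psi_opField hq hqN hA y (Local.levelToBar (q ^ 2 * N) Av f)

end Instance

/-- **Three orbital products kill the character.** -/
theorem opHom_cube_eq_zero_of_rigid {N q p : ℕ} [Fact q.Prime] [NeZero q] [NeZero N] [NeZero p]
    (hq : q.Prime) (hqN : ¬ q ∣ N) (h4 : q = 2 ∧ 9 ∣ N ∨ q ≠ 2 ∧ 4 ∣ N) (hp : p.Prime) (hqp : q ≠ p)
    {A : Pair q → Pair q → ℕ} (hA : IsNatInvariant A)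
    (hcls : ∀ (y : Pair q) (j : Fin 3),
      p ∣ ∑ z ∈ Finset.univ.filter (fun z => pairClass z = j), A y z)
    {Av : ValuationSubring Qbar} (hAv : Av.LiesOverPrime q)
    {χ : Additive (Gamma0 (q ^ 2 * N)) →+ ZMod p} {f : modularFunctionFieldBar (q ^ 2 * N)}
    (hf : IsKummerFn χ f)
    (hfE : (f : LaurentSeries Qbar) ∈ levelField (inertiaField Av) (q ^ 2 * N)) :
    opHom hqN (fun y z => (A y z : ZMod p)) hA.cast
      (opHom hqN (fun y z => (A y z : ZMod p)) hA.cast
        (opHom hqN (fun y z => (A y z : ZMod p)) hA.cast χ)) = 0 := by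
  obtain ⟨h, hh, hhN⟩ : ∃ h, (h = 2 ∨ h = 3) ∧ h ^ 2 ∣ q ^ 2 * N := by
    rcases h4 with ⟨-, h⟩ | ⟨-, h⟩
    · exact ⟨3, Or.inr rfl, by simpa using h.mul_left (q ^ 2)⟩
    · exact ⟨2, Or.inl rfl, by simpa using h.mul_left (q ^ 2)⟩
  obtain ⟨M, N', _, _, rfl, H⟩ := exists_baseHyp hAv hq hqN h4
  have := (baseDataH H).isIntegrallyClosed
  have := Local.isDiscreteValuationRing_unramInt hAv hq
  set T := threeSheet (baseDataH H) (upperDataH H)
  set D := opData (hqN := hqN) (baseDataH H) (upperDataH H) hA with hD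
  set L := Local.levelToBar (q ^ 2 * (M * N')) Av with hL
  set x : levelField (inertiaField Av) (q ^ 2 * (M * N')) := ⟨_, hfE⟩ with hx
  have hxf : L x = f := Subtype.ext rfl
  have hx0 : x ≠ 0 := fun h0 => hf.ne_zero (by rw [← hxf, h0, map_zero])
  have hk2 := isKummerFn_opField (A := A) hq hqN hA (isKummerFn_opField hq hqN hA (hxf ▸ hf))
  have hk3 := isKummerFn_opField (A := A) hq hqN hA hk2
  rw [← levelToBar_opLevel, ← levelToBar_opLevel] at hk2
  rw [← levelToBar_opLevel, ← levelToBar_opLevel, ← levelToBar_opLevel] at hk3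
  have hdiv : ∀ {χ' : Additive (Gamma0 (q ^ 2 * (M * N'))) →+ ZMod p}
      {w : levelField (inertiaField Av) (q ^ 2 * (M * N'))}, IsKummerFn χ' (L w) →
      ∀ 𝔭 : Ideal T.B, 𝔭.IsPrime → (q : T.B) ∉ 𝔭 → T.DivAt p 𝔭 w :=
    fun {χ'} {w} hw 𝔭 h𝔭 hq𝔭 =>
      Local.exists_mul_eq_mul_pow_of_finite (q ^ 2 * (M * N')) hAv hq hp.pos w
        (fun v hv => hw.dvd_ord_of_sq_dvd hh hhN (CarayolFF.jBar_eq) v hv) 𝔭 (hp := h𝔭) hq𝔭
  obtain ⟨E, hE⟩ : p ∣ ∑ z, A basePair z := by
    rw [← Finset.sum_fiberwise Finset.univ pairClass]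
    exact Finset.dvd_sum fun j _ => hcls _ j
  have hrow : ∀ i, ∑ j, D.cnt i j = p * E := fun i => by
    rw [← hE, ← sum_row_eq hA (repPair q i),
      ← Finset.sum_fiberwise Finset.univ pairClass (fun z => A (repPair q i) z)]
    rfl
  obtain ⟨y, G, hy, hC⟩ := D.exists_consistent_op hp.pos (fun i j => hcls (repPair q i) j)
    (fun i hi => sub_one_dvd_sum_mid hA hi) hrow hx0 (hdiv hk2) (hdiv hk3)
  have hker : ∀ ι : Emb (q ^ 2 * (M * N')), ∃ j,
      ∀ b : Local.modelAlg (q ^ 2 * (M * N')) Av,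
        (∀ k : ℤ, (ι.1 (L b)).coeff k ∈ Av.nonunits) ↔ b ∈ RingHom.ker (T.r j) := fun ι => by
    obtain ⟨j, hj⟩ := exists_smallKer_eq hAv hq hqN ι
    refine ⟨j, fun b => ?_⟩
    show (∀ k : ℤ, (ι.1 ((toModel Av (q ^ 2 * (M * N')) b : model Av (q ^ 2 * (M * N'))) :
      modularFunctionFieldBar (q ^ 2 * (M * N')))).coeff k ∈ Av.nonunits) ↔ _
    rw [hj, RingHom.mem_ker]
    exact (rModel_eq_zero_iff hAv hq hqN j b).symm
  have hy' : L y ≠ 0 := fun h0 => hy (L.injective (h0.trans (map_zero L).symm))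
  obtain ⟨g, hg⟩ := exists_root_of_consistent hAv hq hp.pos
    (fun h' => hqp ((Nat.prime_dvd_prime_iff_eq hq hp).1 h')) _ hker T.components _
    (mul_ne_zero (D.op_ne_zero (D.op_ne_zero (D.op_ne_zero hx0))) (pow_ne_zero p hy))
    (fun 𝔭 h𝔭 hq𝔭 => ThreeSheet.DivAt.mul (T := T) (hp := h𝔭) (hdiv hk3 𝔭 h𝔭 hq𝔭)
      ⟨y, 1, 1, h𝔭.one_notMem, h𝔭.one_notMem, rfl⟩)
    G hC
  have h3 := hk3.mul_pow hy'
  rw [← map_pow, ← map_mul] at h3
  refine IsKummerFn.eq_zero_of_pow (H := g) ?_
  convert h3 using 1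
  exact Subtype.ext (by rw [SubmonoidClass.coe_pow]; exact hg)

end Fermat.Agent.ResidualCarayol.Geometry
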