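import Fermat.Agent.ResidualCarayol.OpHom
import Fermat.Prelude.Def_ModularCurve_PeriodMap
import Mathlib.Tactic.NoncommRing

/-!
# Orbital operators preserve parabolic homomorphisms

For `η` of trace `±2`, `η^(2 q)` is congruent to one modulo `q` and has trace `2`; hence every
Shapiro cocycle of a parabolic homomorphism vanishes at it, and `2 q` times the value at `η` of an
invariant kernel applied to the cocycle is zero.
-/

set_option autoImplicit false

noncomputable section

namespace Fermat.Agent.ResidualCarayol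

open CongruenceSubgroup Matrix
open ModularCurve.Period (IsParabolicHom)
open scoped MatrixGroups

/-- The powers of the square of a matrix of trace squared four. -/
theorem sq_pow_of_trace_sq {g : SL(2, ℤ)}
    (hg : (g : Matrix (Fin 2) (Fin 2) ℤ).trace ^ 2 = 4) (m : ℕ) :
    ∃ X : Matrix (Fin 2) (Fin 2) ℤ, X.trace = 0 ∧
      ((g ^ (2 * m) : SL(2, ℤ)) : Matrix (Fin 2) (Fin 2) ℤ) = 1 + m • X := by
  set G : Matrix (Fin 2) (Fin 2) ℤ := ↑g
  set t := G.trace
  have hd : G 0 0 * G 1 1 - G 0 1 * G 1 0 = 1 := by rw [← det_fin_two]; exact g.2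
  have hch : G * G = t • G - 1 := by
    ext i j
    rw [Matrix.sub_apply, Matrix.smul_apply, Matrix.mul_apply, Fin.sum_univ_two, smul_eq_mul,
      Matrix.one_apply, show t = G 0 0 + G 1 1 from trace_fin_two G]
    fin_cases i <;> fin_cases j <;> simp <;>
      first | ring1 | linear_combination hd | linear_combination -hd
  set X : Matrix (Fin 2) (Fin 2) ℤ := t • G - 2 • 1 with hX
  have h1 : G * G = 1 + X := by rw [hch, hX]; abel
  have h2 : X * X = 0 := by
    have e : X * X = t ^ 2 • (G * G) - (4 * t) • G + 4 • 1 := by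
      rw [hX]
      simp only [mul_sub, sub_mul, smul_mul_assoc, mul_smul_comm, mul_one, one_mul, smul_sub,
        smul_smul]
      module
    rw [e, hg, hch]
    module
  refine ⟨X, ?_, ?_⟩
  · rw [hX, trace_sub, trace_smul, trace_smul, trace_one, Fintype.card_fin, smul_eq_mul]
    show t * t - 2 • ((2 : ℕ) : ℤ) = 0
    rw [← sq, hg]
    rfl
  · show G ^ (2 * m) = _
    rw [pow_mul, sq, h1]
    clear_value X
    induction m with
    | zero => simp
    | succ m ih =>
      rw [pow_succ, ih, succ_nsmul, add_mul, one_mul, mul_add, mul_one, smul_mul_assoc, h2,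
        smul_zero, add_zero]
      abel

/-- The trace is invariant under conjugation. -/
lemma trace_conj (t g : SL(2, ℤ)) :
    ((t⁻¹ * g * t : SL(2, ℤ)) : Matrix (Fin 2) (Fin 2) ℤ).trace =
      (g : Matrix (Fin 2) (Fin 2) ℤ).trace := by
  show ((t⁻¹).1 * g.1 * t.1).trace = g.1.trace
  rw [Matrix.trace_mul_comm, ← mul_assoc,
    show t.1 * (t⁻¹).1 = 1 from congrArg Subtype.val (mul_inv_cancel t), one_mul]

variable {N q : ℕ} [Fact q.Prime] {k : Type*} [CommRing k]

omit [Fact (Nat.Prime q)] in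
lemma trace_conjUp (γ : Gamma0 (q ^ 2 * N)) :
    (conjUp γ : Matrix (Fin 2) (Fin 2) ℤ).trace = (γ.1 : Matrix (Fin 2) (Fin 2) ℤ).trace := by
  rw [trace_fin_two, trace_fin_two]
  rfl

lemma trace_conjDown (η : stabGroup N q (basePair : Pair q)) :
    (conjDown η : Matrix (Fin 2) (Fin 2) ℤ).trace = (η.1 : Matrix (Fin 2) (Fin 2) ℤ).trace := by
  rw [trace_fin_two, trace_fin_two]
  rfl

/-- Powers of a cocycle against an invariant row. -/
lemma sum_row_pow {A : Pair q → Pair q → k} (hA : IsInvariant A) {c : Gamma0 N → Pair q → k}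
    (hc : IsCocycle q c) {η : Gamma0 N} (hη : red N q η • (basePair : Pair q) = basePair) (m : ℕ) :
    ∑ z, A basePair z * c (η ^ m) z = (m : k) * ∑ z, A basePair z * c η z := by
  induction m with
  | zero => simp [hc.one_eq]
  | succ m ih =>
    have e : ∑ z, A basePair z * c (η ^ m) ((red N q η)⁻¹ • z) =
        ∑ z, A basePair z * c (η ^ m) z := by
      refine Fintype.sum_equiv (MulAction.toPerm (red N q η)⁻¹) _ _ fun z => ?_
      rw [MulAction.toPerm_apply]
      congr 1
      rw [← hA (red N q η)⁻¹ basePair z, inv_smul_eq_iff.2 hη.symm]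
    rw [pow_succ']
    simp only [hc η (η ^ m), mul_add, Finset.sum_add_distrib, e, ih]
    push_cast
    ring

/-- **Orbital operators preserve parabolic homomorphisms.** -/
theorem isParabolicHom_opHom (hqN : ¬ q ∣ N) (A : Pair q → Pair q → k) (hA : IsInvariant A)
    (hk : IsUnit ((2 * q : ℕ) : k)) {χ : Additive (Gamma0 (q ^ 2 * N)) →+ k}
    (hχ : IsParabolicHom (Gamma0 (q ^ 2 * N)) χ) :
    IsParabolicHom (Gamma0 (q ^ 2 * N)) (opHom hqN A hA χ) := by
  intro γ hγ
  rw [opHom_apply]
  set φ := χ.comp (MonoidHom.toAdditive (conjT hqN).symm.toMonoidHom)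
  set η : Gamma0 N := ⟨conjT hqN γ, stabGroup_le (conjT hqN γ).2⟩
  have hη : (η.1 : Matrix (Fin 2) (Fin 2) ℤ).trace ^ 2 = 4 := by
    rw [show (η.1 : SL(2, ℤ)) = conjUp γ from rfl, trace_conjUp, hγ]
  obtain ⟨X, hX0, hX⟩ := sq_pow_of_trace_sq hη q
  have hred : red N q (η ^ (2 * q)) = 1 := by
    apply Units.ext
    ext i j
    refine (toG_apply q _ i j).trans ?_
    show ((((η.1 ^ (2 * q) : SL(2, ℤ)) : Matrix (Fin 2) (Fin 2) ℤ) i j : ℤ) : ZMod q) = _
    rw [hX, Matrix.add_apply, Matrix.smul_apply, nsmul_eq_mul, Int.cast_add, Int.cast_mul,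
      Int.cast_natCast, ZMod.natCast_self, zero_mul, add_zero]
    fin_cases i <;> fin_cases j <;> simp
  have hzero : ∀ z : Pair q,
      shapiro (isTransitiveFrom_pair hqN) φ (η ^ (2 * q)) z = 0 := fun z => by
    show χ (Additive.ofMul ((conjT hqN).symm ⟨_, transport_mem _ _ z⟩)) = 0
    refine hχ _ ?_
    show (conjDown _ : Matrix (Fin 2) (Fin 2) ℤ).trace ^ 2 = 4
    rw [trace_conjDown]
    simp only [hred, inv_one, one_smul, Subgroup.coe_mul, InvMemClass.coe_inv,
      SubmonoidClass.coe_pow]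
    refine (congrArg (· ^ 2) ((trace_conj _ _).trans ((congrArg Matrix.trace hX).trans ?_))).trans
      (rfl : ((2 : ℤ)) ^ 2 = 4)
    rw [trace_add, trace_smul, hX0, smul_zero, add_zero, trace_one]
    rfl
  have h := sum_row_pow hA (isCocycle_shapiro (isTransitiveFrom_pair hqN) φ)
    (red_smul_base (conjT hqN γ)) (2 * q)
  simp only [show (⟨conjT hqN γ, stabGroup_le (conjT hqN γ).2⟩ : Gamma0 N) = η from rfl, hzero,
    mul_zero, Finset.sum_const_zero] at h
  exact hk.mul_right_eq_zero.1 h.symm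

end Fermat.Agent.ResidualCarayol

end
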