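import Fermat.Agent.ResidualCarayol.Geometry.KummerFn

/-!
# Restriction to an auxiliary level

A parabolic character of `Γ₀(M)` vanishing on `Γ₀(M')`, for `M'` dividing `M` times a prime power,
is trivial; a Kummer function of a character is one of its restriction.
-/

set_option autoImplicit false

noncomputable section

open UpperHalfPlane CongruenceSubgroup ModularCurve
open ModularCurve.Period (IsParabolicHom parabolicHoms)
open scoped MatrixGroups Manifold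

namespace Fermat.Agent.ResidualCarayol

open KummerDivisor (IsAlgRoot)
open HeckeDatum (ParChar)

local notation "Qbar" => AlgebraicClosure ℚ
local notation "ι₀" => AlgHom.toRingHom complexEmbedding

/-- `Γ₀(M')` is contained in `Γ₀(M)` for `M ∣ M'`. -/
theorem gamma0_le_of_dvd {M M' : ℕ} (h : M ∣ M') : Gamma0 M' ≤ Gamma0 M := fun γ hγ => by
  rw [Gamma0_mem, ZMod.intCast_zmod_eq_zero_iff_dvd] at hγ ⊢
  exact (Int.natCast_dvd_natCast.mpr h).trans hγ

variable {M M' : ℕ} {A : Type*} [AddCommGroup A]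

/-- Restriction of characters of `Γ₀(M)` to `Γ₀(M')`. -/
def resChar (h : M ∣ M') (χ : Additive (Gamma0 M) →+ A) : Additive (Gamma0 M') →+ A :=
  χ.comp (MonoidHom.toAdditive (Subgroup.inclusion (gamma0_le_of_dvd h)))

/-- The restriction of a character, evaluated. -/
@[simp] theorem resChar_apply (h : M ∣ M') (χ : Additive (Gamma0 M) →+ A) (γ : Gamma0 M') :
    resChar h χ (Additive.ofMul γ) = χ (Additive.ofMul ⟨γ.1, gamma0_le_of_dvd h γ.2⟩) := rfl

theorem resChar_parabolic (h : M ∣ M') {χ : Additive (Gamma0 M) →+ A}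
    (hχ : IsParabolicHom (Gamma0 M) χ) : IsParabolicHom (Gamma0 M') (resChar h χ) :=
  fun γ hγ => hχ ⟨γ.1, gamma0_le_of_dvd h γ.2⟩ hγ

/-- Restriction of parabolic characters. -/
def resPar {n : ℕ} (h : M ∣ M') (χ : ParChar M n) : ParChar M' n :=
  ⟨resChar h χ.1, resChar_parabolic h χ.2⟩

@[simp] theorem coe_resPar {n : ℕ} (h : M ∣ M') (χ : ParChar M n) :
    (resPar h χ).1 = resChar h χ.1 := rfl

open Matrix.SpecialLinearGroup in
/-- Parabolic characters are detected on an auxiliary level. -/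
theorem eq_zero_of_resChar_eq_zero {χ : Additive (Gamma0 M) →+ A}
    (hχ : IsParabolicHom (Gamma0 M) χ) (hMM : M ∣ M') {h e : ℕ} (hh : h.Prime)
    (hM' : M' ∣ M * h ^ e) (h0 : resChar hMM χ = 0) : χ = 0 := by
  let U : ℤ → SL(2, ℤ) := fun j => ⟨!![1, 0; (M : ℤ) * j, 1], by rw [Matrix.det_fin_two_of]; ring⟩
  have hUM : ∀ j, U j ∈ Gamma0 M := fun j => by
    rw [Gamma0_mem, ZMod.intCast_zmod_eq_zero_iff_dvd]
    exact ⟨j, rfl⟩
  have hU : ∀ j, χ (Additive.ofMul ⟨U j, hUM j⟩) = 0 := fun j => hχ _ (by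
    show (Matrix.trace !![1, 0; (M : ℤ) * j, 1]) ^ 2 = 4
    rw [Matrix.trace_fin_two_of]; norm_num)
  have hTM : ModularGroup.T ∈ Gamma0 M := by
    rw [Gamma0_mem, ModularGroup.coe_T]; simp
  have hT : χ (Additive.ofMul ⟨ModularGroup.T, hTM⟩) = 0 := hχ _ (by
    show (Matrix.trace (ModularGroup.T : Matrix (Fin 2) (Fin 2) ℤ)) ^ 2 = 4
    rw [ModularGroup.coe_T, Matrix.trace_fin_two_of]; norm_num)
  have key : ∀ γ : Gamma0 M, ¬ (h : ℤ) ∣ γ.1 0 0 → χ (Additive.ofMul γ) = 0 := by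
    intro γ ha
    have hcop : IsCoprime (γ.1 0 0) ((h : ℤ) ^ e) := IsCoprime.pow_right
      (((Nat.prime_iff_prime_int.mp hh).irreducible.coprime_iff_not_dvd.mpr ha).symm)
    obtain ⟨u, v, huv⟩ := hcop
    obtain ⟨c₀, hc₀⟩ : (M : ℤ) ∣ γ.1 1 0 :=
      (ZMod.intCast_zmod_eq_zero_iff_dvd _ _).mp (Gamma0_mem.mp γ.2)
    have hmem : U (-c₀ * u) * γ.1 ∈ Gamma0 M' := by
      rw [Gamma0_mem, ZMod.intCast_zmod_eq_zero_iff_dvd]
      refine (Int.natCast_dvd_natCast.mpr hM').trans ⟨c₀ * v, ?_⟩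
      rw [coe_mul, Matrix.mul_apply, Fin.sum_univ_two]
      show ((M : ℤ) * (-c₀ * u)) * γ.1 0 0 + 1 * γ.1 1 0 = _
      rw [hc₀]
      push_cast
      linear_combination (-((M : ℤ) * c₀)) * huv
    have h1 := DFunLike.congr_fun h0 (Additive.ofMul ⟨_, hmem⟩)
    rw [resChar_apply, AddMonoidHom.zero_apply] at h1
    have h2 : (⟨U (-c₀ * u) * γ.1, gamma0_le_of_dvd hMM hmem⟩ : Gamma0 M) =
        ⟨U (-c₀ * u), hUM _⟩ * γ := rfl
    rwa [h2, ofMul_mul, map_add, hU, zero_add] at h1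
  refine AddMonoidHom.ext fun x => ?_
  obtain ⟨γ, rfl⟩ : ∃ γ, Additive.ofMul γ = x := ⟨x.toMul, rfl⟩
  by_cases ha : (h : ℤ) ∣ γ.1 0 0
  · have h1 := key (⟨ModularGroup.T, hTM⟩ * γ) fun hac => by
      have hdet : γ.1 0 0 * γ.1 1 1 - γ.1 0 1 * γ.1 1 0 = 1 := by
        rw [← Matrix.det_fin_two]; exact γ.1.2
      rw [show ((⟨ModularGroup.T, hTM⟩ * γ : Gamma0 M) : SL(2, ℤ)) 0 0 = γ.1 0 0 + γ.1 1 0 from by
        simp [Matrix.mul_apply, Fin.sum_univ_two, ModularGroup.coe_T]] at hac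
      have hc : (h : ℤ) ∣ γ.1 1 0 := (dvd_add_right ha).mp hac
      have : (h : ℤ) ∣ 1 := hdet ▸ dvd_sub (ha.mul_right _) (hc.mul_left _)
      exact hh.one_lt.ne' (Nat.dvd_one.mp (Int.natCast_dvd_natCast.mp (by simpa using this)))
    rwa [ofMul_mul, map_add, hT, zero_add] at h1
  · exact key γ ha

/-- The auxiliary level `q² · lcm(N, h²)` divides `q² N · h²`. -/
theorem auxLevel_dvd (q N h : ℕ) : q ^ 2 * Nat.lcm N (h ^ 2) ∣ q ^ 2 * N * h ^ 2 := by
  rw [mul_assoc]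
  exact Nat.mul_dvd_mul_left _ (Nat.lcm_dvd_mul N _)

variable [NeZero M] [NeZero M'] {p : ℕ} [NeZero p]

/-- Weakly holomorphic functions of level `M`, at level `M'`. -/
theorem weak_gamma0_of_dvd {B : Subring ℂ} (hMM : M ∣ M') {f : ℍ → ℂ}
    (hf : f ∈ KummerES.weak (Gamma0 M) M B) : f ∈ KummerES.weak (Gamma0 M') M' B := by
  obtain ⟨k, rfl⟩ := hMM
  have : NeZero k := ⟨fun h => NeZero.ne (M * k) (by rw [h, mul_zero])⟩
  refine ⟨hf.1, fun γ hγ => hf.2.1 γ (gamma0_le_of_dvd (dvd_mul_right M k) hγ), fun δ => ?_⟩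
  obtain ⟨s, hs, hs'⟩ := hf.2.2 δ
  exact ⟨_, KummerES.qExpand_mem_coeffSubring k hs, hs'.dilate k⟩

/-- The embedding of level `M` into level `M'` keeps the series. -/
theorem coe_toField_of_dvd (hMM : M ∣ M') (ι : Qbar →+* ℂ) {f : ℍ → ℂ}
    (hf : f ∈ KummerES.weak (Gamma0 M) M ι.range) :
    (ModularAnalytic.toField M' M' ι ⟨f, weak_gamma0_of_dvd hMM hf⟩ : LaurentSeries Qbar) =
      (ModularAnalytic.toField M M ι ⟨f, hf⟩ : LaurentSeries Qbar) := by
  obtain ⟨k, rfl⟩ := hMM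
  have : NeZero k := ⟨fun h => NeZero.ne (M * k) (by rw [h, mul_zero])⟩
  refine ModularAnalytic.toField_eq (M * k) (M * k) ι ?_
  have hs := KummerES.hasExp_expansion hf 1
  rw [KummerES.comp_one] at hs
  refine (ModularAnalytic.hasExp_of_kummer (hs.dilate k)).congr_series ?_
  have hq : ∀ (a b : ℕ) [NeZero a] [NeZero b], a = b → ∀ s : LaurentSeries ℂ,
      qExpand ℂ a s = qExpand ℂ b s := fun a b _ _ hab s => by subst hab; rfl
  rw [← ModularAnalytic.qExpand_coeffMap_toField M M ι ⟨f, hf⟩, qExpand_qExpand]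
  exact hq _ _ (mul_comm k M) _

variable {χ : Additive (Gamma0 M) →+ ZMod p} {f : modularFunctionFieldBar M}

/-- A Kummer function is a Kummer function of the restricted character. -/
theorem IsKummerFn.restrict (hMM : M ∣ M') (h : IsKummerFn χ f) {f' : modularFunctionFieldBar M'}
    (hf' : (f' : LaurentSeries Qbar) = f) : IsKummerFn (resChar hMM χ) f' := by
  obtain ⟨g, hg, z, hz, rfl⟩ := h
  have hle := CarayolReduction.bar_mono (N := M) (M := M') hMM
  have hg' : IsAlgRoot ι₀ (resChar hMM χ) g :=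
    ⟨hg.ne_zero, hg.holo, fun γ => hg.comp_eq ⟨γ.1, gamma0_le_of_dvd hMM γ.2⟩,
      weak_gamma0_of_dvd hMM hg.pow_mem⟩
  refine ⟨g, hg', ⟨(z : LaurentSeries Qbar), hle z.2⟩,
    fun h0 => hz (Subtype.ext (show (z : LaurentSeries Qbar) = 0 from Subtype.ext_iff.mp h0)),
    Subtype.ext ?_⟩
  rw [hf', MulMemClass.coe_mul, MulMemClass.coe_mul, SubmonoidClass.coe_pow,
    SubmonoidClass.coe_pow, IsAlgRoot.fn, IsAlgRoot.fn, coe_toField_of_dvd hMM ι₀ hg.pow_mem]

end Fermat.Agent.ResidualCarayol
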