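import Fermat.Agent.ResidualCarayol.OpHom
import Fermat.Agent.ResidualCarayol.Geometry.AuxLevel

/-!
# Orbital operators commute with restriction to an auxiliary level

Shapiro cocycles at two levels differ by a coboundary, which an invariant kernel maps to a
coboundary.
-/

set_option autoImplicit false

noncomputable section

namespace Fermat.Agent.ResidualCarayol

open CongruenceSubgroup Matrix
open scoped MatrixGroups

variable {N N' q : ℕ} [Fact q.Prime] {k : Type*} [CommRing k]

/-- **Orbital operators commute with restriction.** -/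
theorem opHom_resChar (hqN : ¬ q ∣ N) (hqN' : ¬ q ∣ N') (h : N ∣ N')
    (A : Pair q → Pair q → k) (hA : IsInvariant A)
    (χ : Additive (Gamma0 (q ^ 2 * N)) →+ k) :
    opHom hqN' A hA (resChar (mul_dvd_mul_left (q ^ 2) h) χ) =
      resChar (mul_dvd_mul_left (q ^ 2) h) (opHom hqN A hA χ) := by
  set φ := χ.comp (MonoidHom.toAdditive (conjT hqN).symm.toMonoidHom) with hφ
  set φ' := (resChar (mul_dvd_mul_left (q ^ 2) h) χ).comp
    (MonoidHom.toAdditive (conjT hqN').symm.toMonoidHom) with hφ'
  let incl : Gamma0 N' → Gamma0 N := fun γ => ⟨γ.1, gamma0_le_of_dvd h γ.2⟩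
  let c : Gamma0 N' → Pair q → k := fun γ => shapiro (isTransitiveFrom_pair hqN) φ (incl γ)
  have hc : IsCocycle q c := fun γ δ x =>
    isCocycle_shapiro (isTransitiveFrom_pair hqN) φ (incl γ) (incl δ) x
  have hd := isCocycle_shapiro (isTransitiveFrom_pair hqN') φ'
  have h0 : atBase basePair (shapiro (isTransitiveFrom_pair hqN') φ' - c) (hd.sub hc) = 0 := by
    refine AddMonoidHom.ext fun x => ?_
    obtain ⟨η, rfl⟩ : ∃ η, Additive.ofMul η = x := ⟨Additive.toMul x, rfl⟩
    rw [atBase_apply, Pi.sub_apply, Pi.sub_apply, shapiro_base, AddMonoidHom.zero_apply]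
    have hη : (η : SL(2, ℤ)) ∈ stabGroup N q (basePair : Pair q) :=
      ⟨gamma0_le_of_dvd h η.2.1, η.2.2⟩
    show φ' (Additive.ofMul η) -
      shapiro (isTransitiveFrom_pair hqN) φ ⟨(⟨η, hη⟩ : stabGroup N q (basePair : Pair q)),
        stabGroup_le hη⟩ basePair = 0
    rw [shapiro_base, sub_eq_zero]
    exact congrArg χ (congrArg Additive.ofMul (Subtype.ext (Subtype.ext rfl)))
  obtain ⟨v, hv⟩ := exists_eq_cob (isTransitiveFrom_pair hqN') (hd.sub hc) h0
  have hdiff : (fun γ => kerOp A (shapiro (isTransitiveFrom_pair hqN') φ' γ)) -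
      (fun γ => kerOp A (c γ)) = cob N' q (kerOp A v) := by
    rw [← cob_map (isEquivariant_kerOp hA)]
    funext γ
    rw [Pi.sub_apply, ← map_sub, ← hv, Pi.sub_apply]
  have hbase := atBase_congr (x₀ := (basePair : Pair q)) (hd.map (isEquivariant_kerOp hA))
    (hc.map (isEquivariant_kerOp hA)) hdiff
  refine AddMonoidHom.ext fun x => ?_
  obtain ⟨γ, rfl⟩ : ∃ γ, Additive.ofMul γ = x := ⟨Additive.toMul x, rfl⟩
  refine (DFunLike.congr_fun hbase (Additive.ofMul (conjT hqN' γ))).trans ?_
  rw [atBase_apply, resChar_apply, opHom_apply]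
  refine Finset.sum_congr rfl fun z _ => congrArg (A basePair z * ·) ?_
  exact congrArg (fun u => shapiro (isTransitiveFrom_pair hqN) φ u z)
    (Subtype.ext (Subtype.ext rfl))

end Fermat.Agent.ResidualCarayol

end
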