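import Fermat.Agent.ResidualCarayol.Pairs
import Fermat.Agent.CarayolFF.EmbKernel
import Fermat.Agent.JacCompare.Compare

/-!
# The expansions of the function field of level `q²N` indexed by pairs of points of `ℙ¹(𝔽_q)`

`psi z` is the expansion, in the parameter `exp (2πi u/q)`, of `f (g⁻¹ u / q)` for an element `g` of
`Γ₀(N)` sending the pair `(0, ∞)` to `z`.  Here it is built algebraically from the three expansions
of level `q²N` and twists by roots of unity.
-/

set_option autoImplicit false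

noncomputable section

open ModularCurve Polynomial
open Fermat.Agent.ModularFunctionField
open Fermat.Agent.Carayol Fermat.Agent.CarayolFF Fermat.Agent.KummerReduction
open scoped OnePoint

namespace Fermat.Agent.ResidualCarayol.Geometry

local notation "Qb" => AlgebraicClosure ℚ

section Roots

variable (q : ℕ) [NeZero q]

theorem exists_rootQ :
    ∃ u : Qbˣ, complexEmbedding.toRingHom (u : Qb) = KummerES.zetaC q := by
  obtain ⟨y, hy⟩ := ModularAnalytic.mem_range_of_pow_eq_one complexEmbedding.toRingHom (n := q)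
    (KummerES.isPrimitiveRoot_zetaC q).pow_eq_one
  have hy0 : y ≠ 0 := fun h => KummerES.zetaC_ne_zero q (by rw [← hy, h, map_zero])
  exact ⟨Units.mk0 y hy0, hy⟩

/-- The algebraic `exp (2πi/q)`. -/
def rootQ : Qbˣ := (exists_rootQ q).choose

/-- The complex value of the chosen root of unity. -/
theorem coe_rootQ : complexEmbedding.toRingHom (rootQ q : Qb) = KummerES.zetaC q :=
  (exists_rootQ q).choose_spec

theorem rootQ_primitive : IsPrimitiveRoot (rootQ q) q :=
  IsPrimitiveRoot.coe_units_iff.mp (IsPrimitiveRoot.of_map_of_injective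
    (f := complexEmbedding.toRingHom) ((coe_rootQ q).symm ▸ KummerES.isPrimitiveRoot_zetaC q)
    complexEmbedding.toRingHom.injective)

theorem rootQ_pow : rootQ q ^ q = 1 := (rootQ_primitive q).pow_eq_one

/-- `exp (2πi x/q)` for `x` modulo `q`. -/
def zq (x : ZMod q) : Qbˣ := rootQ q ^ x.val

variable {q}

@[simp] theorem zq_zero : zq q (0 : ZMod q) = 1 := by rw [zq, ZMod.val_zero, pow_zero]

theorem zq_add (x y : ZMod q) : zq q (x + y) = zq q x * zq q y := by
  rw [zq, zq, zq, ← pow_add, ZMod.val_add, ← pow_eq_pow_mod _ (rootQ_pow q)]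

theorem zq_natCast (n : ℕ) : zq q (n : ZMod q) = rootQ q ^ n := by
  rw [zq, ZMod.val_natCast, ← pow_eq_pow_mod _ (rootQ_pow q)]

theorem zq_pow (x : ZMod q) : zq q x ^ q = 1 := by
  rw [zq, ← pow_mul, mul_comm, pow_mul, rootQ_pow, one_pow]

theorem zq_ne_one {x : ZMod q} (hx : x ≠ 0) : zq q x ≠ 1 := fun h => by
  have := (rootQ_primitive q).pow_eq_one_iff_dvd x.val |>.mp h
  exact hx ((ZMod.val_eq_zero x).mp (Nat.eq_zero_of_dvd_of_lt this x.val_lt))

/-- A power of the inertia generator's root. -/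
theorem exists_zq_eq (x : ZMod q) : ∃ k : ℕ, zq q x = zetaUnit q ^ k := by
  obtain ⟨i, -, hi⟩ := (IsPrimitiveRoot.coe_units_iff.mpr
    (zetaUnit_primitive q)).eq_pow_of_pow_eq_one (ξ := (zq q x : Qb))
    (by rw [← Units.val_pow_eq_pow_val, zq_pow, Units.val_one])
  exact ⟨i, Units.ext (by rw [Units.val_pow_eq_pow_val, hi])⟩

theorem zq_zpow_sub_one {A : ValuationSubring Qb} (hA : A.LiesOverPrime q) (hq : q.Prime)
    (x : ZMod q) (n : ℤ) : ((zq q x ^ n : Qbˣ) : Qb) - 1 ∈ A.nonunits := by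
  obtain ⟨k, hk⟩ := exists_zq_eq x
  rw [hk, ← zpow_natCast, ← zpow_mul]
  exact zetaUnit_zpow_sub_one hA hq _

theorem map_zq {σ : Qb ≃ₐ[ℚ] Qb} {c : ℕ} (hc : σ (rootQ q : Qb) = (rootQ q : Qb) ^ c)
    (x : ZMod q) : Units.map ((σ : Qb →+* Qb) : Qb →* Qb) (zq q x) = zq q ((c : ZMod q) * x) := by
  refine Units.ext ?_
  conv_rhs => rw [← ZMod.natCast_zmod_val x, ← Nat.cast_mul, zq_natCast, Units.val_pow_eq_pow_val]
  show σ ((rootQ q ^ x.val : Qbˣ) : Qb) = _
  rw [Units.val_pow_eq_pow_val, map_pow, hc, ← pow_mul]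

/-- Galois sends the chosen root of unity to a primitive power. -/
theorem exists_map_rootQ (σ : Qb ≃ₐ[ℚ] Qb) :
    ∃ c : ℕ, c.Coprime q ∧ σ (rootQ q : Qb) = (rootQ q : Qb) ^ c := by
  have hp : IsPrimitiveRoot (rootQ q : Qb) q :=
    IsPrimitiveRoot.coe_units_iff.mpr (rootQ_primitive q)
  obtain ⟨i, -, hi, e⟩ := hp.isPrimitiveRoot_iff.mp
    (hp.map_of_injective (f := σ.toRingEquiv.toRingHom) σ.injective)
  exact ⟨i, hi, e.symm⟩

end Roots

variable {q N : ℕ} [Fact q.Prime] [NeZero q] [NeZero N]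

/-- The affine coordinate, `0` at infinity. -/
def coord (x : Line q) : ZMod q := Option.getD x 0

omit [NeZero q] in
/-- The coordinate of a finite point. -/
@[simp] theorem coord_coe (a : ZMod q) : coord ((a : ZMod q) : Line q) = a := rfl

omit [NeZero q] in
/-- A finite point is given by its coordinate. -/
theorem eq_coe_coord {x : Line q} (hx : x ≠ ∞) : x = ((coord x : ZMod q) : Line q) := by
  obtain ⟨a, rfl⟩ := OnePoint.ne_infty_iff_exists.mp hx
  rfl

omit [NeZero q] in
/-- The points of a finite pair have distinct coordinates. -/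
theorem coord_sub_ne_zero (z : Pair q) (h : z.fst ≠ ∞) (h' : z.snd ≠ ∞) :
    coord z.fst - coord z.snd ≠ 0 := fun e => z.ne (by
  rw [eq_coe_coord h, eq_coe_coord h', sub_eq_zero.mp e])

/-- The expansion attached to a pair. -/
def psi (hq : q.Prime) (hqN : ¬ q ∣ N) (z : Pair q) :
    modularFunctionFieldBar (q ^ 2 * N) →ₐ[Qb] LaurentSeries Qb :=
  if h : z.fst = ∞ then
    (twistHom (zq q (-coord z.snd))).comp
      ((modularFunctionFieldBar (q ^ 2 * N)).val.comp (atkin hq hqN))
  else if h' : z.snd = ∞ then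
    (twistHom (zq q (-coord z.fst))).comp (modularFunctionFieldBar (q ^ 2 * N)).val
  else (twistHom (zq q (-coord z.fst))).comp
    (midHom hq hqN ModCurveGenus.iotaC (zq q (coord z.fst - coord z.snd)) (zq_pow _)
      (zq_ne_one (coord_sub_ne_zero z h h')))

/-- The component reached by `psi z`. -/
def pairClass (z : Pair q) : Fin 3 := if z.fst = ∞ then 2 else if z.snd = ∞ then 0 else 1

variable (q) in
/-- The expansion of `j` attached to a point. -/
def lineSeries (d : ℕ) [NeZero d] (x : Line q) : LaurentSeries Qb :=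
  if x = ∞ then qExpand Qb (d * q ^ 2) (jqModC Qb)
  else twist (zq q (-coord x)) (qExpand Qb d (jqModC Qb))

omit [Fact q.Prime] in
theorem twist_qExpand_of_dvd (x : ZMod q) {k : ℕ} [NeZero k] (h : q ∣ k) (s : LaurentSeries Qb) :
    twist (zq q x) (qExpand Qb k s) = qExpand Qb k s := by
  obtain ⟨r, rfl⟩ := h
  rw [twist_qExpand, pow_mul, zq_pow, one_pow, twist_one]

variable (hq : q.Prime) (hqN : ¬ q ∣ N)

/-- `psi z` on the generators `j (d qⁱ τ)`. -/
theorem psi_gen (z : Pair q) (i : Fin 3) (d : {d : ℕ // d ∣ N}) :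
    psi hq hqN z ⟨gen q Qb (i, d), gen_mem Qb hq _⟩ =
      if i = 0 then lineSeries q d.1 z.fst
      else if i = 2 then lineSeries q d.1 z.snd
      else qExpand Qb (d.1 * q) (jqModC Qb) := by
  have : NeZero d.1 := ⟨ne_zero_of_dvd_ne_zero (NeZero.ne N) d.2⟩
  have hg0 : gen q Qb ((0, d) : Idx N) = qExpand Qb d.1 (jqModC Qb) :=
    qExpand_congr (by simp) _
  have hg1 : gen q Qb ((1, d) : Idx N) = qExpand Qb (d.1 * q) (jqModC Qb) :=
    qExpand_congr (by simp) _
  have hg2 : gen q Qb ((2, d) : Idx N) = qExpand Qb (d.1 * q ^ 2) (jqModC Qb) :=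
    qExpand_congr (by simp) _
  have hd1 : ∀ x : ZMod q, twist (zq q x) (qExpand Qb (d.1 * q) (jqModC Qb)) =
      qExpand Qb (d.1 * q) (jqModC Qb) := fun x => twist_qExpand_of_dvd x (dvd_mul_left _ _) _
  have hd2 : ∀ x : ZMod q, twist (zq q x) (qExpand Qb (d.1 * q ^ 2) (jqModC Qb)) =
      qExpand Qb (d.1 * q ^ 2) (jqModC Qb) := fun x =>
    twist_qExpand_of_dvd x ((dvd_pow_self q two_ne_zero).mul_left _) _
  by_cases h : z.fst = ∞
  · have h' : z.snd ≠ ∞ := fun h' => z.ne (h.trans h'.symm)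
    rw [psi, dif_pos h]
    show twist (zq q (-coord z.snd))
      (atkin hq hqN ⟨gen q Qb (i, d), gen_mem Qb hq _⟩ : LaurentSeries Qb) = _
    rw [atkin, flipHom_gen, genFlip]
    fin_cases i
    · show twist _ (gen q Qb ((2, d) : Idx N)) = lineSeries q d.1 z.fst
      rw [hg2, hd2, lineSeries, if_pos h]
    · show twist _ (gen q Qb ((1, d) : Idx N)) = qExpand Qb (d.1 * q) (jqModC Qb)
      rw [hg1, hd1]
    · show twist _ (gen q Qb ((0, d) : Idx N)) = lineSeries q d.1 z.snd
      rw [hg0, lineSeries, if_neg h']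
  by_cases h' : z.snd = ∞
  · rw [psi, dif_neg h, dif_pos h']
    show twist (zq q (-coord z.fst)) (gen q Qb (i, d)) = _
    fin_cases i
    · show twist _ (gen q Qb ((0, d) : Idx N)) = lineSeries q d.1 z.fst
      rw [hg0, lineSeries, if_neg h]
    · show twist _ (gen q Qb ((1, d) : Idx N)) = qExpand Qb (d.1 * q) (jqModC Qb)
      rw [hg1, hd1]
    · show twist _ (gen q Qb ((2, d) : Idx N)) = lineSeries q d.1 z.snd
      rw [hg2, hd2, lineSeries, if_pos h']
  rw [psi, dif_neg h, dif_neg h', AlgHom.comp_apply, twistHom_apply, midHom_gen]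
  fin_cases i
  · show twist _ (genMid q _ ((0, d) : Idx N)) = lineSeries q d.1 z.fst
    rw [genMid, if_neg (show (0 : Fin 3) ≠ 2 by decide), hg0, lineSeries, if_neg h]
  · show twist _ (genMid q _ ((1, d) : Idx N)) = qExpand Qb (d.1 * q) (jqModC Qb)
    rw [genMid, if_neg (show (1 : Fin 3) ≠ 2 by decide), hg1, hd1]
  · show twist _ (genMid q _ ((2, d) : Idx N)) = lineSeries q d.1 z.snd
    rw [genMid, if_pos rfl, twist_twist, ← zq_add, lineSeries, if_neg h']
    congr 2
    exact congrArg (zq q) (by ring)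

/-- `psi` of the base pair is the expansion at infinity. -/
theorem psi_base (x : modularFunctionFieldBar (q ^ 2 * N)) :
    psi hq hqN basePair x = (x : LaurentSeries Qb) := by
  have h1 : (basePair : Pair q).fst ≠ ∞ := OnePoint.coe_ne_infty _
  rw [psi, dif_neg h1, dif_pos (show (basePair : Pair q).snd = ∞ from rfl)]
  show twist (zq q (-coord ((0 : ZMod q) : Line q))) _ = _
  rw [coord_coe, neg_zero, zq_zero, twist_one]
  rfl

/-- Galois conjugation moves the expansions of `j` by a diagonal matrix. -/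
theorem coeffMap_lineSeries {σ : Qb ≃ₐ[ℚ] Qb} {c : ℕ} (hc : σ (rootQ q : Qb) = (rootQ q : Qb) ^ c)
    (hc0 : (c : ZMod q) ≠ 0) (d : ℕ) [NeZero d] (x : Line q) :
    coeffMap (σ : Qb →+* Qb) (lineSeries q d x) =
      lineSeries q d (diagGrp (c : ZMod q) hc0 • x) := by
  induction x using OnePoint.rec with
  | infty => rw [diagGrp_smul_infty, lineSeries, if_pos rfl, coeffMap_qExpand', coeffMap_jqC]
  | coe a =>
    rw [diagGrp_smul_coe, lineSeries, if_neg (OnePoint.coe_ne_infty _), lineSeries,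
      if_neg (OnePoint.coe_ne_infty _), coeffMap_twist, map_zq hc, coeffMap_qExpand', coeffMap_jqC,
      coord_coe, coord_coe, mul_neg]

/-- Galois conjugation permutes the expansions. -/
theorem coeffMap_psi {σ : Qb ≃ₐ[ℚ] Qb} {c : ℕ} (hc : σ (rootQ q : Qb) = (rootQ q : Qb) ^ c)
    (hc0 : (c : ZMod q) ≠ 0) (z : Pair q) (x : modularFunctionFieldBar (q ^ 2 * N)) :
    coeffMap (σ : Qb →+* Qb) (psi hq hqN z x) =
      psi hq hqN (diagGrp (c : ZMod q) hc0 • z)
        (arithmeticRingAut (modularFunctionFieldFull (q ^ 2 * N)) σ x) := by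
  refine level_induction hq (P := fun f => coeffMap (σ : Qb →+* Qb) (psi hq hqN z f) =
      psi hq hqN (diagGrp (c : ZMod q) hc0 • z)
        (arithmeticRingAut (modularFunctionFieldFull (q ^ 2 * N)) σ f))
    (fun i => ?_) (fun a => ?_) (fun x y hx hy => ?_) (fun x hx => ?_) (fun x y hx hy => ?_) x
  · obtain ⟨i, d⟩ := i
    have : NeZero d.1 := ⟨ne_zero_of_dvd_ne_zero (NeZero.ne N) d.2⟩
    rw [show arithmeticRingAut (modularFunctionFieldFull (q ^ 2 * N)) σ
        ⟨gen q Qb (i, d), gen_mem Qb hq _⟩ = ⟨gen q Qb (i, d), gen_mem Qb hq _⟩ from Subtype.ext (by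
      rw [coe_arithmeticRingAut_apply]
      show coeffMap (σ : Qb →+* Qb) (qExpand Qb _ (jqModC Qb)) = _
      rw [coeffMap_qExpand', coeffMap_jqC]
      rfl), psi_gen, psi_gen, Pair.smul_fst, Pair.smul_snd]
    split_ifs
    · exact coeffMap_lineSeries hc hc0 _ _
    · exact coeffMap_lineSeries hc hc0 _ _
    · rw [coeffMap_qExpand', coeffMap_jqC]
  · rw [AlgHom.commutes, arithmeticRingAut_algebraMap, AlgHom.commutes]
    exact coeffMap_algebraMap (σ : Qb →+* Qb) a
  · simp only [map_add, hx, hy]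
  · simp only [map_inv₀, hx]
  · simp only [map_mul, hx, hy]

variable {A : ValuationSubring Qb}

/-- The reduction along `psi z` is the reduction on the component `pairClass z`. -/
theorem exists_redSeries_psi (hA : A.LiesOverPrime q) (z : Pair q)
    (x : model A (q ^ 2 * N)) :
    ∃ h : psi hq hqN z x ∈ (resData A).intSeries,
      (resData A).redSeries ⟨_, h⟩ = resHom hA hq hqN (pairClass z) x := by
  by_cases h : z.fst = ∞
  · obtain ⟨h2, hres⟩ := redSeries_twist (zq_zpow_sub_one hA hq (-coord z.snd))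
      (compHom_mem_intSeries hA hq hqN 2 x.2)
    have e : psi hq hqN z x = twist (zq q (-coord z.snd)) (compHom hq hqN 2 x) := by
      rw [psi, dif_pos h]; rfl
    refine ⟨e ▸ h2, ?_⟩
    rw [pairClass, if_pos h, resHom_apply, ← hres]
    exact CarayolFF.redSeries_congr e _ _
  by_cases h' : z.snd = ∞
  · obtain ⟨h2, hres⟩ := redSeries_twist (zq_zpow_sub_one hA hq (-coord z.fst))
      (compHom_mem_intSeries hA hq hqN 0 x.2)
    have e : psi hq hqN z x = twist (zq q (-coord z.fst)) (compHom hq hqN 0 x) := by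
      rw [psi, dif_neg h, dif_pos h']; rfl
    refine ⟨e ▸ h2, ?_⟩
    rw [pairClass, if_neg h, if_pos h', resHom_apply, ← hres]
    exact CarayolFF.redSeries_congr e _ _
  obtain ⟨k, hk⟩ := exists_zq_eq (coord z.fst - coord z.snd)
  have hne := zq_ne_one (coord_sub_ne_zero z h h')
  have hkq : ¬ q ∣ k := by
    rintro ⟨r, rfl⟩
    exact hne (by rw [hk, pow_mul, zetaUnit_pow, one_pow])
  obtain ⟨h1, hres1⟩ := redSeries_midHom_pow hA hq hqN hkq (hk ▸ zq_pow _) (hk ▸ hne) x
  obtain ⟨h2, hres⟩ := redSeries_twist (zq_zpow_sub_one hA hq (-coord z.fst)) h1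
  have e : psi hq hqN z x = twist (zq q (-coord z.fst))
      (midHom hq hqN ModCurveGenus.iotaC (zetaUnit q ^ k) (hk ▸ zq_pow _) (hk ▸ hne) x) := by
    rw [psi, dif_neg h, dif_neg h']
    simp only [hk]
    rfl
  refine ⟨e ▸ h2, ?_⟩
  rw [pairClass, if_neg h, if_neg h', ← hres1, ← hres]
  exact CarayolFF.redSeries_congr e _ _

/-- `j (τ + a/q)` is integral over `O[j]`. -/
theorem isIntegral_twist_jBar (O : Subring Qb) (x : ZMod q) :
    IsIntegral (jPolyRing O) (twist (zq q x) jBar) := by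
  set S := integralClosure (jPolyRing O) (LaurentSeries Qb)
  have hprim : IsPrimitiveRoot (rootQ q) q := rootQ_primitive q
  let M₀ : Tri q := Tri.mk 1 0 q (one_mul q) (Fact.out : q.Prime).pos (by simp)
  have hroot : jRoot (rootQ q) 1 M₀ = jqModC Qb := by
    show subst (rootQ q ^ (0 * 1 * 1)) (1 * 1 * 1) (jqModC Qb) = _
    rw [subst_congr (v := 1) (l := 1) (by simp) (by simp), subst_one, qExpand_one_apply]
  have h0 : Polynomial.eval₂ (evalPhi q Qb) jBar (modularPoly q) = 0 := by
    rw [← Polynomial.eval_map, modularPoly_map_evalPhi hprim, Polynomial.eval_prod]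
    exact Finset.prod_eq_zero (Finset.mem_univ M₀) (by simp [hroot, CarayolFF.jBar_eq])
  have htw : (twist (zq q x)).comp (evalPhi q Qb) = evalPhi q Qb := by
    refine Polynomial.ringHom_ext' (Subsingleton.elim _ _) ?_
    rw [RingHom.comp_apply, evalPhi, RingHom.comp_apply, coe_mapRingHom, Polynomial.map_X,
      evalJT_X, jT, twist_qExpand_of_dvd x dvd_rfl]
  have h1 := congrArg (twist (zq q x)) h0
  rw [map_zero, Polynomial.hom_eval₂, htw] at h1
  have hmem : ∀ P, evalPhi q Qb P ∈ S.toSubring := by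
    intro P
    induction P using Polynomial.induction_on' with
    | add P₁ P₂ h₁ h₂ => rw [map_add]; exact add_mem h₁ h₂
    | monomial i c =>
      rw [← Polynomial.C_mul_X_pow_eq_monomial, map_mul, map_pow]
      refine mul_mem ?_ (pow_mem ?_ i)
      · rw [eq_intCast (C : ℤ →+* ℤ[X]), map_intCast]
        exact intCast_mem _ _
      · rw [evalPhi, RingHom.comp_apply, coe_mapRingHom, Polynomial.map_X, evalJT_X, jT,
          ← CarayolFF.jBar_eq]
        exact isIntegral_qExpand_jBar O q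
  refine isIntegral_trans (A := S) _ ⟨(modularPoly q).map ((evalPhi q Qb).codRestrict S hmem),
    (modularPoly_monic q).map _, ?_⟩
  rw [Polynomial.eval₂_map]
  exact h1

/-- `psi z` on `j`. -/
theorem psi_jElem (z : Pair q) :
    psi hq hqN z (jElem (q ^ 2 * N)) = lineSeries q 1 z.fst := by
  have h : jElem (q ^ 2 * N) = ⟨gen q Qb ((0, ⟨1, one_dvd N⟩) : Idx N), gen_mem Qb hq _⟩ := by
    refine Subtype.ext ?_
    show jBar = qExpand Qb (1 * q ^ 0) (jqModC Qb)
    rw [qExpand_congr (M := 1 * q ^ 0) (K := 1) (by simp), qExpand_one_apply, CarayolFF.jBar_eq]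
  rw [h, psi_gen, if_pos rfl]

/-- The expansions of the model are integral over `O[j]`. -/
theorem isIntegral_psi_of_model (z : Pair q) {x : modularFunctionFieldBar (q ^ 2 * N)}
    (hx : x ∈ model A (q ^ 2 * N)) :
    IsIntegral (jPolyRing (unramInt A)) (psi hq hqN z x) := by
  refine isIntegral_apply_of_model (psi hq hqN z) ?_ hx
  rw [psi_jElem, lineSeries]
  split_ifs
  · rw [qExpand_congr (M := 1 * q ^ 2) (K := q ^ 2) (one_mul _), ← CarayolFF.jBar_eq]
    exact isIntegral_qExpand_jBar _ _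
  · rw [qExpand_one_apply, ← CarayolFF.jBar_eq]
    exact isIntegral_twist_jBar _ _

end Fermat.Agent.ResidualCarayol.Geometry
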