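import Fermat.Agent.ResidualCarayol.OpHom
import Fermat.Agent.ResidualCarayol.Geometry.Embeddings
import Fermat.Agent.KummerDivisor.FlatModules

/-!
# The geometric statement of residual Carayol

An invariant kernel with vanishing class sums, applied three times, kills a parabolic character
fixed by inertia at `q`.
-/

set_option autoImplicit false

noncomputable section

namespace Fermat.Agent.ResidualCarayol

open CongruenceSubgroup
open Fermat.Agent.GaloisBasics (Qbar)
open scoped MatrixGroups OnePoint

variable {q : ℕ} [Fact q.Prime]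

/-- The sums of a kernel over the classes `first point ∞`, `second point ∞`, `neither` vanish. -/
def ClassSumsVanish {k : Type*} [CommRing k] (A : Pair q → Pair q → k) : Prop :=
  ∀ (y : Pair q) (j : Fin 3),
    ∑ z ∈ Finset.univ.filter (fun z => Geometry.pairClass z = j), A y z = 0

lemma sum_pairClass {k : Type*} [CommRing k] (g : Pair q → k) (j : Fin 3) :
    ∑ z ∈ Finset.univ.filter (fun z => Geometry.pairClass z = j), g z =
      ∑ z, g z * (if Geometry.pairClass z = j then 1 else 0) := by
  rw [Finset.sum_filter]
  exact Finset.sum_congr rfl fun z _ => by split_ifs <;> simp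

/-- A kernel killing old functions has vanishing class sums. -/
theorem KillsOld.classSumsVanish {k : Type*} [CommRing k] {A : Pair q → Pair q → k}
    (h : KillsOld A) : ClassSumsVanish A := by
  intro y j
  rw [sum_pairClass]
  have h1 := congrFun (h (Pi.single (∞ : Line q) 1)).1 y
  have h2 := congrFun (h (Pi.single (∞ : Line q) 1)).2 y
  have h3 := congrFun (h 1).1 y
  simp only [kerOp_apply, Pi.zero_apply, Pi.one_apply, Pi.single_apply] at h1 h2 h3
  have key : ∀ z : Pair q, ∀ j : Fin 3, (if Geometry.pairClass z = j then (1 : k) else 0) =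
      if j = 2 then (if z.fst = ∞ then 1 else 0)
      else if j = 0 then (if z.snd = ∞ then 1 else 0)
      else 1 - (if z.fst = ∞ then 1 else 0) - (if z.snd = ∞ then 1 else 0) := by
    intro z j
    unfold Geometry.pairClass
    by_cases hf : z.fst = ∞
    · have hs : z.snd ≠ ∞ := fun hs => z.ne (hf.trans hs.symm)
      fin_cases j <;> simp [hf, hs]
    · by_cases hs : z.snd = ∞ <;> fin_cases j <;> simp [hf, hs]
  simp only [key]
  simp only [mul_ite, mul_one, mul_zero] at h1 h2 h3
  fin_cases j <;> simp [mul_sub, Finset.sum_sub_distrib, h1, h2, h3]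

variable (q)

/-- **The geometric input**: three applications of a kernel with vanishing class sums kill the
characters fixed by inertia at `q`. -/
def GeoStatement (N p : ℕ) [NeZero N] [NeZero p] : Prop :=
  ∀ (hqN : ¬ q ∣ N) (G : KummerES.Gamma0Modules (q ^ 2 * N) p),
    KummerDivisor.HasAlgebraicRoots G complexEmbedding.toRingHom →
    ∀ (Av : ValuationSubring Qbar), Av.LiesOverPrime q →
    ∀ (A : Pair q → Pair q → ZMod (p ^ 1)) (hA : IsInvariant A), ClassSumsVanish A →
    ∀ χ : ModularCurve.Period.parabolicHoms ℤ (Gamma0 (q ^ 2 * N)) (ZMod (p ^ 1)),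
      (∀ σ ∈ Av.inertiaSubgroupIn ℚ, G.rep 1 σ χ = χ) →
      opHom hqN A hA (opHom hqN A hA (opHom hqN A hA χ.1)) = 0

end Fermat.Agent.ResidualCarayol
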