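import Fermat.Agent.CarayolReduction.Core
import Fermat.Agent.ResidualCarayol.Geometry.Core
import Fermat.Agent.ResidualCarayol.Geometry.Parabolic
import Fermat.Agent.ResidualCarayol.Geometry.Restrict
import Fermat.Agent.ResidualCarayol.Geometry.Statement

/-!
# The geometric statement of residual Carayol

A character fixed by inertia has a Kummer function with unramified constants. At the level
rigidified by `4` or `9` three orbital products kill its restriction, and parabolic characters
are detected there.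
-/

set_option autoImplicit false

noncomputable section

open CongruenceSubgroup ModularCurve
open ModularCurve.Period (IsParabolicHom)
open scoped MatrixGroups

namespace Fermat.Agent.ResidualCarayol.Geometry

variable {q : ℕ} [Fact q.Prime]

/-- **The geometric input of residual Carayol.** -/
theorem geoStatement (N p : ℕ) [NeZero N] [NeZero p] (hp : p.Prime) (hp2 : p ≠ 2) (hqp : q ≠ p) :
    GeoStatement q N p := by
  intro hqN G hG Av hAv A hA hcls χ hfix
  have hq : q.Prime := Fact.out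
  have : NeZero q := ⟨hq.ne_zero⟩
  obtain ⟨h, hh, h4⟩ : ∃ h : ℕ, h.Prime ∧
      (q = 2 ∧ h = 3 ∨ q ≠ 2 ∧ h = 2) := by
    by_cases h2 : q = 2
    · exact ⟨3, Nat.prime_three, Or.inl ⟨h2, rfl⟩⟩
    · exact ⟨2, Nat.prime_two, Or.inr ⟨h2, rfl⟩⟩
  set N' := Nat.lcm N (h ^ 2) with hN'
  have : NeZero N' := ⟨Nat.lcm_ne_zero (NeZero.ne N) (pow_ne_zero 2 hh.ne_zero)⟩
  have hqN' : ¬ q ∣ N' := fun hd => by
    rcases hq.dvd_mul.1 (hd.trans (Nat.lcm_dvd_mul N (h ^ 2))) with hd | hd
    · exact hqN hd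
    · have := (Nat.prime_dvd_prime_iff_eq hq hh).1 (hq.dvd_of_dvd_pow hd)
      omega
  have hrig : q = 2 ∧ 9 ∣ N' ∨ q ≠ 2 ∧ 4 ∣ N' := by
    rcases h4 with ⟨h2, rfl⟩ | ⟨h2, rfl⟩
    · exact Or.inl ⟨h2, (show (9 : ℕ) ∣ 3 ^ 2 by norm_num).trans (Nat.dvd_lcm_right N (3 ^ 2))⟩
    · exact Or.inr ⟨h2, (show (4 : ℕ) ∣ 2 ^ 2 by norm_num).trans (Nat.dvd_lcm_right N (2 ^ 2))⟩
  have hNN : N ∣ N' := Nat.dvd_lcm_left N (h ^ 2)
  have hMM : q ^ 2 * N ∣ q ^ 2 * N' := mul_dvd_mul_left _ hNN
  -- the natural lift of the kernel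
  set An : Pair q → Pair q → ℕ := fun y z => (A y z).val
  have hcast : (fun y z => (An y z : ZMod (p ^ 1))) = A :=
    funext fun y => funext fun z => ZMod.natCast_zmod_val (A y z)
  have hAn : IsNatInvariant An := fun g y z => congrArg ZMod.val (hA g y z)
  have hclsn : ∀ (y : Pair q) (j : Fin 3),
      p ^ 1 ∣ ∑ z ∈ Finset.univ.filter (fun z => pairClass z = j), An y z := fun y j => by
    rw [← ZMod.natCast_eq_zero_iff, Nat.cast_sum]
    simp only [An, ZMod.natCast_zmod_val]
    exact hcls y j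
  -- a Kummer function with unramified constants, at the rigid level
  obtain ⟨f, hf, hfE, -⟩ := exists_descended_rep hG (I := Av.inertiaSubgroupIn ℚ) χ hfix
  have h0 := opHom_cube_eq_zero_of_rigid hq hqN' hrig (p := p ^ 1) (by rwa [pow_one])
    (by rwa [pow_one]) hAn hclsn hAv
    (hf.restrict hMM (f' := ⟨_, CarayolReduction.bar_mono hMM f.2⟩) rfl)
    (CarayolReduction.levelField_mono _ hMM hfE)
  have hop : ∀ (B : Pair q → Pair q → ZMod (p ^ 1)) (hB : IsInvariant B), B = A →
      opHom hqN' B hB = opHom hqN' A hA := by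
    intro B hB e
    subst e
    rfl
  rw [hop _ hAn.cast hcast, opHom_resChar hqN hqN' hNN, opHom_resChar hqN hqN' hNN,
    opHom_resChar hqN hqN' hNN] at h0
  have hunit : IsUnit ((2 * q : ℕ) : ZMod (p ^ 1)) := by
    rw [ZMod.isUnit_iff_coprime, pow_one]
    exact Nat.Coprime.mul_left ((Nat.coprime_primes Nat.prime_two hp).2 hp2.symm)
      ((Nat.coprime_primes hq hp).2 hqp)
  exact eq_zero_of_resChar_eq_zero
    (isParabolicHom_opHom hqN A hA hunit (isParabolicHom_opHom hqN A hA hunit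
      (isParabolicHom_opHom hqN A hA hunit χ.2))) hMM hh (auxLevel_dvd q N h) h0

end Fermat.Agent.ResidualCarayol.Geometry
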