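import Fermat.Agent.ResidualCarayol.Geometry.Embeddings
import Fermat.Agent.ResidualCarayol.Geometry.Translates
import Fermat.Agent.ModularAnalytic.WeakField

/-!
# The expansions of translates

The translate attached to a pair has the expansion `psi z` at infinity.
-/

set_option autoImplicit false

noncomputable section

open UpperHalfPlane CongruenceSubgroup ModularCurve
open Fermat.Agent.ModularFunctionField (jFun jFun_invariant subst coeffMap_jqC)
open Fermat.Agent.CarayolFF (jScaled scale coe_scale mobius coe_mobius_smul Idx gen gen_mem)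
open Fermat.Agent.KummerES (comp weak)
open scoped MatrixGroups Manifold OnePoint Real

namespace Fermat.Agent.ResidualCarayol.Geometry

local notation "Qbar" => AlgebraicClosure ℚ
local notation "ι₀" => AlgHom.toRingHom complexEmbedding
local notation "BB" => RingHom.range (ι₀ : Qbar →+* ℂ)

variable {N q : ℕ} [Fact q.Prime] [NeZero q] [NeZero N]

local notation "W₀" => weak (Gamma0 (q ^ 2 * N)) (q ^ 2 * N) BB
local notation "W₁" => weak (⊥ : Subgroup SL(2, ℤ)) (q ^ 2 * N * q) BB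
local notation "R₀" => HeckeLattice.rep q ((0 : ZMod q) : HeckeLattice.Idx q)

variable (q) in
/-- The function behind `lineSeries q d x`. -/
def lineFun (d : ℕ) [NeZero d] (x : Line q) (v : ℍ) : ℂ :=
  if x = ∞ then jScaled (d * q ^ 2) v
  else jFun (mobius d ((d : ℝ) * (-coord x).val / q) 0 1
    (by simp [Nat.pos_of_ne_zero (NeZero.ne d)]) • v)

variable (q) in
/-- `lineFun` has the expansion `lineSeries`. -/
theorem hasExp_lineFun (d : ℕ) [NeZero d] (x : Line q) :
    ModularFunctionField.HasExp 1 (lineFun q d x) (coeffMap ι₀ (lineSeries q d x)) := by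
  unfold lineFun lineSeries
  by_cases h : x = ∞
  · simp only [if_pos h]
    exact CarayolFF.hasExp_jScaled' ι₀ (d * q ^ 2)
  · simp only [if_neg h]
    rw [CarayolFF.twist_eq_subst, ModularFunctionField.coeffMap_subst, coeffMap_jqC]
    refine CarayolFF.hasExp_jFun_affine d _ _ ?_
    rw [map_pow, Units.val_pow_eq_pow_val, Units.coe_map, MonoidHom.coe_coe, zq,
      Units.val_pow_eq_pow_val, map_pow, coe_rootQ, KummerES.zetaC, ← Complex.exp_nat_mul,
      ← Complex.exp_nat_mul]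
    congr 1
    push_cast
    ring

omit [Fact q.Prime] [NeZero q] [NeZero N] in
theorem coe_smul_mul (γ : SL(2, ℤ)) (u : ℍ) :
    ((γ • u : ℍ) : ℂ) * ((γ 1 0 : ℂ) * u + (γ 1 1 : ℂ)) = (γ 0 0 : ℂ) * u + (γ 0 1 : ℂ) := by
  rw [coe_specialLinearGroup_apply]
  simp only [algebraMap_int_eq, eq_intCast, Complex.ofReal_intCast]
  refine div_mul_cancel₀ _ fun h => ?_
  have := UpperHalfPlane.linear_ne_zero (cd := ![((γ 1 0 : ℤ) : ℝ), ((γ 1 1 : ℤ) : ℝ)]) u
    fun h0 => by
      have hd := γ.det_coe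
      rw [Matrix.det_fin_two] at hd
      have h1 : γ 1 0 = 0 := by simpa using congrFun h0 0
      have h2 : γ 1 1 = 0 := by simpa using congrFun h0 1
      simp [h1, h2] at hd
  exact this (by simpa using h)

omit [Fact q.Prime] [NeZero q] [NeZero N] in
/-- The determinant of an element of `SL(2,ℤ)` by entries. -/
theorem det_entries (γ : SL(2, ℤ)) : γ 0 0 * γ 1 1 - γ 0 1 * γ 1 0 = 1 := by
  rw [← Matrix.det_fin_two]; exact γ.det_coe

omit [Fact q.Prime] [NeZero q] [NeZero N] in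
theorem exists_lowerLeft {γ : SL(2, ℤ)} (hγ : γ ∈ Gamma0 N) {d : ℕ} (hd : d ∣ N) :
    ∃ k : ℤ, γ 1 0 = (d : ℤ) * k :=
  (Int.natCast_dvd_natCast.2 hd).trans
    ((ZMod.intCast_zmod_eq_zero_iff_dvd _ _).1 (Gamma0_mem.1 hγ))

omit [NeZero N] in
/-- `j (d v)` moved to the first point. -/
theorem jScaled_fst {γ : SL(2, ℤ)} (hγ : γ ∈ Gamma0 N) {d : ℕ} [NeZero d] (hd : d ∣ N)
    {x : Line q} (hx : toG q γ • x = ((0 : ZMod q) : Line q)) (u : ℍ) :
    jScaled d (R₀ • (γ • u)) = lineFun q d x (R₀ • u) := by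
  have hG := coe_smul_mul γ u
  have hdet := det_entries γ
  obtain ⟨k, hk⟩ := exists_lowerLeft hγ hd
  have hq : (q : ℂ) ≠ 0 := Nat.cast_ne_zero.2 (Fact.out : q.Prime).ne_zero
  have hkC : (γ 1 0 : ℂ) = (d : ℂ) * k := by exact_mod_cast hk
  induction x using OnePoint.rec with
  | infty =>
    rw [OnePoint.smul_infty_eq_ite] at hx
    obtain ⟨a₁, ha⟩ : (q : ℤ) ∣ γ 0 0 := by
      split_ifs at hx with h
      · exact absurd hx (OnePoint.infty_ne_coe _)
      · rw [OnePoint.coe_eq_coe, div_eq_zero_iff, or_iff_left h, toG_apply,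
          ZMod.intCast_zmod_eq_zero_iff_dvd] at hx
        exact hx
    have haC : (γ 0 0 : ℂ) = (q : ℂ) * a₁ := by exact_mod_cast ha
    rw [lineFun, if_pos rfl]
    refine CarayolFF.jFun_eq_of_coe (a := a₁) (b := (d : ℤ) * γ 0 1) (c := k)
      (d := (q : ℤ) * γ 1 1) ?_ _ _ ?_
    · linear_combination hdet - γ 1 1 * ha + γ 0 1 * hk
    · rw [coe_scale, coe_scale, coe_rep_zero, coe_rep_zero]
      push_cast
      field_simp
      linear_combination (d : ℂ) * hG + (d : ℂ) * (u : ℂ) * haC -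
        (d : ℂ) * ((γ • u : ℍ) : ℂ) * (u : ℂ) * hkC
  | coe s =>
    set r := (-s).val
    obtain ⟨m, hm⟩ : (q : ℤ) ∣ γ 0 1 - γ 0 0 * r := by
      rw [OnePoint.smul_some_eq_ite] at hx
      split_ifs at hx with h
      · exact absurd hx (OnePoint.infty_ne_coe _)
      · rw [OnePoint.coe_eq_coe, div_eq_zero_iff, or_iff_left h, toG_apply, toG_apply] at hx
        rw [← ZMod.intCast_zmod_eq_zero_iff_dvd]
        push_cast
        rw [ZMod.natCast_zmod_val]
        linear_combination hx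
    have hmC : (γ 0 1 : ℂ) - (γ 0 0 : ℂ) * r = (q : ℂ) * m := by exact_mod_cast hm
    rw [lineFun, if_neg (OnePoint.coe_ne_infty s)]
    refine CarayolFF.jFun_eq_of_coe (a := γ 0 0) (b := (d : ℤ) * m) (c := (q : ℤ) * k)
      (d := γ 1 1 - γ 1 0 * r) ?_ _ _ ?_
    · linear_combination hdet + γ 1 0 * hm + (q : ℤ) * m * hk
    · rw [coe_scale, coe_mobius_smul, coe_rep_zero, coe_rep_zero]
      simp only [coord_coe]
      push_cast
      field_simp
      linear_combination (d : ℂ) * hG + (d : ℂ) * hmC -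
        (d : ℂ) * ((γ • u : ℍ) : ℂ) * ((u : ℂ) + r) * hkC -
        ((u : ℂ) + r) * d * ((γ 0 0 : ℂ) - d * ((γ • u : ℍ) : ℂ) * k) * mul_inv_cancel₀ hq

omit [NeZero N] in
/-- `j (d q² v)` moved to the second point. -/
theorem jScaled_snd (hqN : ¬ q ∣ N) {γ : SL(2, ℤ)} (hγ : γ ∈ Gamma0 N) {d : ℕ} [NeZero d]
    (hd : d ∣ N) {x : Line q} (hx : toG q γ • x = ∞) (u : ℍ) :
    jScaled (d * q ^ 2) (R₀ • (γ • u)) = lineFun q d x (R₀ • u) := by
  have hG := coe_smul_mul γ u
  have hdet := det_entries γ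
  obtain ⟨k, hk⟩ := exists_lowerLeft hγ hd
  have hqd : ¬ (q : ℤ) ∣ d := fun h => hqN ((Int.natCast_dvd_natCast.1 h).trans hd)
  have hq : (q : ℂ) ≠ 0 := Nat.cast_ne_zero.2 (Fact.out : q.Prime).ne_zero
  have hkC : (γ 1 0 : ℂ) = (d : ℂ) * k := by exact_mod_cast hk
  induction x using OnePoint.rec with
  | infty =>
    rw [OnePoint.smul_infty_eq_self_iff, toG_apply, ZMod.intCast_zmod_eq_zero_iff_dvd, hk] at hx
    obtain ⟨n, hn⟩ :=
      ((Nat.prime_iff_prime_int.1 (Fact.out : q.Prime)).dvd_mul.1 hx).resolve_left hqd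
    have hnC : (k : ℂ) = (q : ℂ) * n := by exact_mod_cast hn
    rw [lineFun, if_pos rfl]
    refine CarayolFF.jFun_eq_of_coe (a := γ 0 0) (b := (d : ℤ) * q * γ 0 1) (c := n)
      (d := γ 1 1) ?_ _ _ ?_
    · linear_combination hdet + γ 0 1 * hk + γ 0 1 * (d : ℤ) * hn
    · rw [coe_scale, coe_scale, coe_rep_zero, coe_rep_zero]
      push_cast
      field_simp
      linear_combination (d : ℂ) * hG -
        (d : ℂ) * ((γ • u : ℍ) : ℂ) * (u : ℂ) * (hkC + (d : ℂ) * hnC)
  | coe s =>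
    set r := (-s).val
    obtain ⟨m, hm⟩ : (q : ℤ) ∣ γ 1 1 - γ 1 0 * r := by
      rw [OnePoint.smul_some_eq_ite] at hx
      split_ifs at hx with h
      · rw [toG_apply, toG_apply] at h
        rw [← ZMod.intCast_zmod_eq_zero_iff_dvd]
        push_cast
        rw [ZMod.natCast_zmod_val]
        linear_combination h
      · exact absurd hx (OnePoint.coe_ne_infty _)
    have hmC : (γ 1 1 : ℂ) - (γ 1 0 : ℂ) * r = (q : ℂ) * m := by exact_mod_cast hm
    rw [lineFun, if_neg (OnePoint.coe_ne_infty s)]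
    refine CarayolFF.jFun_eq_of_coe (a := (q : ℤ) * γ 0 0) (b := (d : ℤ) * (γ 0 1 - γ 0 0 * r))
      (c := k) (d := m) ?_ _ _ ?_
    · linear_combination hdet - γ 0 0 * hm + (γ 0 1 - γ 0 0 * r) * hk
    · rw [coe_scale, coe_mobius_smul, coe_rep_zero, coe_rep_zero]
      simp only [coord_coe]
      push_cast
      field_simp
      linear_combination (d : ℂ) * hG -
        (d : ℂ) * ((γ • u : ℍ) : ℂ) * hmC -
        (d : ℂ) * ((γ • u : ℍ) : ℂ) * ((u : ℂ) + r) * hkC -
        ((u : ℂ) + r) * d * ((γ 0 0 : ℂ) - d * ((γ • u : ℍ) : ℂ) * k) * mul_inv_cancel₀ hq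

omit [NeZero N] in
/-- `j (d q v)` is invariant. -/
theorem jScaled_mid {γ : SL(2, ℤ)} (hγ : γ ∈ Gamma0 N) {d : ℕ} [NeZero d] (hd : d ∣ N) (u : ℍ) :
    jScaled (d * q) (R₀ • (γ • u)) = jScaled (d * q) (R₀ • u) := by
  obtain ⟨k, hk⟩ := exists_lowerLeft hγ hd
  have hdet := det_entries γ
  have hkC : (γ 1 0 : ℂ) = (d : ℂ) * k := by exact_mod_cast hk
  have hq : (q : ℂ) ≠ 0 := Nat.cast_ne_zero.2 (Fact.out : q.Prime).ne_zero
  refine CarayolFF.jFun_eq_of_coe (a := γ 0 0) (b := (d : ℤ) * γ 0 1) (c := k)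
    (d := γ 1 1) ?_ _ _ ?_
  · linear_combination hdet + γ 0 1 * hk
  · rw [coe_scale, coe_scale, coe_rep_zero, coe_rep_zero]
    push_cast
    field_simp
    linear_combination (d : ℂ) * coe_smul_mul γ u - (d : ℂ) * ((γ • u : ℍ) : ℂ) * (u : ℂ) * hkC

theorem jN_eq_jScaled (e : ℕ) [NeZero e] (τ : ℍ) : ModularAnalytic.jN e τ = jScaled e τ := by
  refine congrArg jFun (UpperHalfPlane.ext ?_)
  rw [coe_scale, ModularFunctionField.Tri.coe_map, ModularAnalytic.top_a, ModularAnalytic.top_b,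
    ModularAnalytic.top_d]
  simp

omit [NeZero q] in
theorem qParam_rep_zero (u : ℍ) :
    Function.Periodic.qParam ((1 : ℕ) : ℝ) ((R₀ • u : ℍ) : ℂ) =
      ((1 : ℂˣ) : ℂ) * Function.Periodic.qParam (q : ℝ) u ^ 1 := by
  rw [Units.val_one, one_mul, pow_one, Function.Periodic.qParam, Function.Periodic.qParam,
    coe_rep_zero]
  congr 1
  push_cast
  ring

variable (hq : q.Prime) (hqN : ¬ q ∣ N)

/-- Translation of invariant functions. -/
def trHom (z : Pair q) : W₀ →+* W₁ where
  toFun f := ⟨tr hqN z f.1, tr_mem hqN z f.2⟩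
  map_one' := rfl
  map_zero' := rfl
  map_add' _ _ := rfl
  map_mul' _ _ := rfl

/-- `trHom` is `tr` on functions. -/
theorem trHom_coe (z : Pair q) (f : W₀) : (trHom hqN z f : ℍ → ℂ) = tr hqN z f := rfl

/-- The expansion at infinity of a translate. -/
def expTr (z : Pair q) : W₀ →+* LaurentSeries ℂ :=
  (KummerES.expAt ⊥ (q ^ 2 * N * q) BB 1).comp (trHom hqN z)

theorem expTr_apply (z : Pair q) (f : W₀) :
    expTr hqN z f = KummerES.expansion (q ^ 2 * N * q) (tr hqN z f) := by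
  rw [expTr, RingHom.comp_apply, KummerES.expAt_apply, KummerES.comp_one]; rfl

theorem expTr_injective (z : Pair q) : Function.Injective (expTr hqN z) := by
  refine (KummerES.expAt_injective 1).comp fun f g h => Subtype.ext (funext fun τ => ?_)
  have h1 := congrFun (congrArg Subtype.val h) (transp hqN z • (HeckeLattice.rep q ∞ • τ))
  simp only [trHom_coe, tr, KummerES.comp_apply, inv_smul_smul] at h1
  have e : R₀ • (HeckeLattice.rep q (∞ : HeckeLattice.Idx q) • τ) = τ := UpperHalfPlane.ext (by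
    rw [coe_rep_zero, coe_rep_infty,
      mul_div_cancel_left₀ _ (Nat.cast_ne_zero.2 (Fact.out : q.Prime).ne_zero)])
  simp only [down, e] at h1
  exact h1

/-- `psi z` over `ℂ`, in the parameter `exp (2πi u/(q³N))`. -/
def psiC (z : Pair q) : modularFunctionFieldBar (q ^ 2 * N) →+* LaurentSeries ℂ :=
  ((qExpand ℂ (q ^ 2 * N)).comp (coeffMap ι₀)).comp (psi hq hqN z).toRingHom

/-- `psiC` is `psi` with complex coefficients in the variable of level `q² N`. -/
theorem psiC_apply (z : Pair q) (x : modularFunctionFieldBar (q ^ 2 * N)) :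
    psiC hq hqN z x = qExpand ℂ (q ^ 2 * N) (coeffMap ι₀ (psi hq hqN z x)) := rfl

/-- The expansions of the translates of the generators. -/
theorem expTr_jN (z : Pair q) (x : Idx N) {f : W₀}
    (hf : (f : ℍ → ℂ) = jScaled (x.2.1 * q ^ (x.1 : ℕ))) :
    expTr hqN z f = psiC hq hqN z ⟨gen q Qbar x, gen_mem Qbar hq x⟩ := by
  obtain ⟨i, d, hd⟩ := x
  have : NeZero d := ⟨ne_zero_of_dvd_ne_zero (NeZero.ne N) hd⟩
  set t := transporter (isTransitiveFrom_pair (N := N) hqN) z
  have hγ : ((t : SL(2, ℤ))⁻¹) ∈ Gamma0 N := inv_mem t.2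
  have hz : toG q ((t : SL(2, ℤ))⁻¹) • z = (basePair : Pair q) := by
    rw [map_inv, inv_smul_eq_iff]
    exact (red_transporter _ z).symm
  obtain ⟨G, hG, hfun⟩ : ∃ G : ℍ → ℂ,
      ModularFunctionField.HasExp 1 G
        (coeffMap ι₀ (psi hq hqN z ⟨gen q Qbar (i, ⟨d, hd⟩), gen_mem Qbar hq _⟩)) ∧
      ∀ u, tr hqN z f u = G (R₀ • u) := by
    rw [psi_gen]
    fin_cases i
    · refine ⟨lineFun q d z.fst, by simpa using hasExp_lineFun q d z.fst, fun u => ?_⟩
      show f.1 (R₀ • (_ • u)) = _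
      rw [hf]
      simp only [pow_zero, mul_one]
      exact jScaled_fst hγ hd (congrArg Pair.fst hz) u
    · refine ⟨jScaled (d * q), by simpa using CarayolFF.hasExp_jScaled' ι₀ (d * q), fun u => ?_⟩
      show f.1 (R₀ • (_ • u)) = _
      rw [hf]
      simp only [pow_one]
      exact jScaled_mid hγ hd u
    · refine ⟨lineFun q d z.snd, by simpa using hasExp_lineFun q d z.snd, fun u => ?_⟩
      show f.1 (R₀ • (_ • u)) = _
      rw [hf]
      exact jScaled_snd hqN hγ hd (congrArg Pair.snd hz) u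
  have h1 := hG.comp (N := q) (fun u => R₀ • u)
    (tendsto_smul_atImInfty (by
      show (ModularForm.heckeMatrix q (0 : ZMod q).val : Matrix (Fin 2) (Fin 2) ℝ) 1 0 = 0
      simp [ModularForm.heckeMatrix, ModularForm.upperTriangularGL, (Fact.out : q.Prime).ne_zero]))
    1 1 qParam_rep_zero
  rw [ModularFunctionField.subst_one, qExpand_one_apply] at h1
  have h2 := (h1.congr fun u => (hfun u).symm).qExpand (q ^ 2 * N) (mul_comm _ _) (NeZero.ne q)
  rw [expTr_apply, psiC_apply]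
  exact (ModularAnalytic.kummer_of_hasExp (tr_mem hqN z f.2).1 h2).expansion_eq

/-- The expansion of a translate is `psi z` of the element of the function field. -/
theorem expTr_eq (z : Pair q) (f : W₀) :
    expTr hqN z f =
      psiC hq hqN z (ModularAnalytic.toField (q ^ 2 * N) (q ^ 2 * N) ι₀ f) := by
  set e := ModularAnalytic.toField (q ^ 2 * N) (q ^ 2 * N) ι₀ with he
  set E := expTr hqN z
  set Ψ := psiC hq hqN z
  have hne : ∀ {w : W₀}, e w ≠ 0 → E w ≠ 0 := fun {w} hw h => hw (by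
    rw [expTr_injective hqN z (h.trans (map_zero E).symm), map_zero])
  have key : ∀ x : modularFunctionFieldBar (q ^ 2 * N),
      ∃ a b : W₀, e b ≠ 0 ∧ x = e a / e b ∧ E a = Ψ x * E b := by
    have halg : ∀ c : Qbar, ∃ a b : W₀, e b ≠ 0 ∧
        algebraMap Qbar (modularFunctionFieldBar (q ^ 2 * N)) c = e a / e b ∧
        E a = Ψ (algebraMap Qbar _ c) * E b := fun c => by
      refine ⟨⟨fun _ => ι₀ c, KummerES.const_mem_weak ⟨c, rfl⟩⟩, 1,
        by rw [map_one]; exact one_ne_zero, ?_, ?_⟩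
      · rw [map_one, div_one]
        refine Subtype.ext (Eq.symm ?_)
        show (e _ : LaurentSeries Qbar) = algebraMap Qbar (LaurentSeries Qbar) c
        refine ModularAnalytic.toField_eq _ _ ι₀
          ((ModularFunctionField.HasExp.const _ (ι₀ c)).congr_series ?_)
        rw [algebraMap_laurentSeries_eq_single, coeffMap_single, qExpand_single, mul_zero,
          HahnSeries.C_apply]
      · rw [map_one, mul_one, psiC_apply, expTr_apply]
        rw [AlgHom.commutes, algebraMap_laurentSeries_eq_single, coeffMap_single, qExpand_single,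
          mul_zero]
        exact (KummerES.HasExp.const (ι₀ c)).expansion_eq
    refine CarayolFF.level_induction hq (fun x => ?_) halg
      (fun x y ⟨a, b, hb, hx, hEx⟩ ⟨c, d, hd, hy, hEy⟩ => ?_) (fun x ⟨a, b, hb, hx, hEx⟩ => ?_)
      (fun x y ⟨a, b, hb, hx, hEx⟩ ⟨c, d, hd, hy, hEy⟩ => ?_)
    · obtain ⟨i, d, hd⟩ := x
      have : NeZero d := ⟨ne_zero_of_dvd_ne_zero (NeZero.ne N) hd⟩
      have hdvd : d * q ^ (i : ℕ) ∣ q ^ 2 * N := by
        rw [mul_comm (q ^ 2) N]
        exact mul_dvd_mul hd (pow_dvd_pow q (by have := i.isLt; omega))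
      refine ⟨⟨_, ModularAnalytic.jN_mem_weak (q ^ 2 * N) (q ^ 2 * N) ι₀ hdvd hdvd⟩, 1,
        by rw [map_one]; exact one_ne_zero, ?_, ?_⟩
      · rw [map_one, div_one]
        exact Subtype.ext (ModularAnalytic.toField_jN (q ^ 2 * N) (q ^ 2 * N) ι₀ hdvd hdvd).symm
      · rw [map_one, mul_one]
        exact expTr_jN hq hqN z (i, ⟨d, hd⟩) (funext fun τ => jN_eq_jScaled _ τ)
    · refine ⟨a * d + c * b, b * d, by rw [map_mul]; exact mul_ne_zero hb hd, ?_, ?_⟩
      · rw [hx, hy, map_add, map_mul, map_mul, map_mul, div_add_div _ _ hb hd]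
        ring
      · rw [map_add, map_mul, map_mul, hEx, hEy, map_mul, map_add]
        ring
    · rcases eq_or_ne x 0 with rfl | hx0
      · rw [inv_zero, ← map_zero (algebraMap Qbar (modularFunctionFieldBar (q ^ 2 * N)))]
        simpa only [map_zero] using halg 0
      · have ha : e a ≠ 0 := fun h => hx0 (by rw [hx, h, zero_div])
        refine ⟨b, a, ha, by rw [hx, inv_div], ?_⟩
        rw [hEx, ← mul_assoc, ← map_mul, inv_mul_cancel₀ hx0, map_one, one_mul]
    · refine ⟨a * c, b * d, by rw [map_mul]; exact mul_ne_zero hb hd, ?_, ?_⟩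
      · rw [hx, hy, map_mul, map_mul, div_mul_div_comm]
      · rw [map_mul, hEx, hEy, map_mul, map_mul]
        ring
  obtain ⟨a, b, hb, hx, hE⟩ := key (e f)
  have hab : f * b = a := ModularAnalytic.toField_injective _ _ ι₀ (by
    rw [map_mul, ← he, hx, div_mul_cancel₀ _ hb])
  rw [← hab, map_mul] at hE
  exact mul_right_cancel₀ (hne hb) hE

end Fermat.Agent.ResidualCarayol.Geometry
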